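/-
MAZUR (Track M), package (R) (helper6), part 1: **the reduction map of `J₀(N)` at a good prime**.

For `𝔓` a place of `ℚ̄` over `ℓ = 𝔓.p ∤ N`:
`mzrRho 𝔓 N hN : J₀(N) →+ Pic⁰(κ(X₀(N e)))`, `κ = 𝔽̄_ℓ`, `e = mzrAux 𝔓 ∈ {4, 9}` the auxiliary level
(`ℓ ∤ e`), defined as the reduction of divisor classes at the good level `N e` (T3-A, `t3zRed`) after
the pull-back `J₀(N) → J₀(N e)` (T3-P, `t3pPull`).

* (R1) `mzrRho_inertia`, `mzrRho_frobenius` : inertia acts trivially, a Frobenius element acts as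
  the coefficientwise Frobenius `mzrPhi`;
* (R2) `mzrRho_injective_torsion` : injectivity on prime-to-`ℓ` torsion.
-/
import Fermat.Agent.Lib.T3.Asm.Glue

set_option autoImplicit false
set_option linter.style.haveILetI false
set_option linter.unusedSectionVars false
set_option linter.unusedVariables false
set_option synthInstance.maxHeartbeats 400000

namespace Fermat.Agent.Mazur

open AlgebraicCurve IntermediateField Fermat.Agent.Curve Fermat.Agent.T1 Fermat.Agent.T3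
  ModularCurve Fermat.Agent.TW Fermat.Agent.S05Lib HahnSeries

local notation "Qb" => AlgebraicClosure ℚ
local notation "GQ" => (AlgebraicClosure ℚ ≃ₐ[ℚ] AlgebraicClosure ℚ)

/-- the auxiliary level: `9` in residue characteristic `2`, `4` otherwise -/
def mzrAux (𝔓 : FFPlace) : ℕ := if 𝔓.p = 2 then 9 else 4

theorem mzrAux_eq (𝔓 : FFPlace) : mzrAux 𝔓 = 4 ∨ mzrAux 𝔓 = 9 := by
  unfold mzrAux
  split_ifs
  · exact Or.inr rfl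
  · exact Or.inl rfl

instance mzrAux_neZero (𝔓 : FFPlace) : NeZero (mzrAux 𝔓) := by
  rcases mzrAux_eq 𝔓 with h | h <;> rw [h] <;> exact ⟨by norm_num⟩

theorem mzrAux_not_dvd (𝔓 : FFPlace) : ¬ 𝔓.p ∣ mzrAux 𝔓 := by
  unfold mzrAux
  split_ifs with h2
  · rw [h2]
    norm_num
  · intro h
    have h4 : 𝔓.p ∣ 2 ^ 2 := by simpa using h
    have := (Nat.prime_dvd_prime_iff_eq 𝔓.hp Nat.prime_two).mp (𝔓.hp.dvd_of_dvd_pow h4)
    exact h2 this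

variable (𝔓 : FFPlace) (N : ℕ) [NeZero N]

instance mzrLevel_neZero : NeZero (N * mzrAux 𝔓) :=
  ⟨mul_ne_zero (NeZero.ne N) (NeZero.ne (mzrAux 𝔓))⟩

theorem mzr_h49 : 4 ∣ N * mzrAux 𝔓 ∨ 9 ∣ N * mzrAux 𝔓 := by
  rcases mzrAux_eq 𝔓 with h | h <;> rw [h]
  · exact Or.inl (dvd_mul_left 4 N)
  · exact Or.inr (dvd_mul_left 9 N)

theorem mzr_not_dvd (hN : ¬ 𝔓.p ∣ N) : ¬ 𝔓.p ∣ N * mzrAux 𝔓 := by
  intro h
  rcases (Nat.Prime.dvd_mul 𝔓.hp).mp h with h1 | h1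
  · exact hN h1
  · exact mzrAux_not_dvd 𝔓 h1

/-- the Jacobian of the reduced curve `X₀(N e)` over `κ = 𝔽̄_ℓ` (as a group) -/
abbrev MzrJb : Type :=
  Pic0 (IsLocalRing.ResidueField ↥𝔓.P) ↥(tbBarF 𝔓 (N * mzrAux 𝔓))

/-- the coefficientwise Frobenius of the reduced function field -/
noncomputable def mzrPhi :
    SemilinearAut (IsLocalRing.ResidueField ↥𝔓.P) ↥(tbBarF 𝔓 (N * mzrAux 𝔓)) :=
  t3bPhi 𝔓 (N * mzrAux 𝔓)

/-- **the reduction map of `J₀(N)` at `𝔓`** (`𝔓.p ∤ N`) -/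
noncomputable def mzrRho (hN : ¬ 𝔓.p ∣ N) : JZero N →+ MzrJb 𝔓 N :=
  (t3zRed 𝔓 (N * mzrAux 𝔓) (mzr_h49 𝔓 N) (mzr_not_dvd 𝔓 N hN)).comp (t3pPull N (mzrAux 𝔓))

theorem mzrRho_apply (hN : ¬ 𝔓.p ∣ N) (x : JZero N) :
    mzrRho 𝔓 N hN x = t3zRed 𝔓 (N * mzrAux 𝔓) (mzr_h49 𝔓 N) (mzr_not_dvd 𝔓 N hN)
      (t3pPull N (mzrAux 𝔓) x) := rfl

/-- **(R1a)** inertia acts trivially after reduction -/
theorem mzrRho_inertia (hN : ¬ 𝔓.p ∣ N) {τ : GQ} (hτ : τ ∈ 𝔓.P.inertiaSubgroupIn ℚ)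
    (x : JZero N) : mzrRho 𝔓 N hN (τ • x) = mzrRho 𝔓 N hN x := by
  rw [mzrRho_apply, mzrRho_apply, t3pPull_galois]
  exact t3zRed_inertia 𝔓 (N * mzrAux 𝔓) (mzr_h49 𝔓 N) (mzr_not_dvd 𝔓 N hN) hτ _

/-- **(R1b)** a Frobenius element acts as the coefficientwise Frobenius after reduction -/
theorem mzrRho_frobenius (hN : ¬ 𝔓.p ∣ N) {σ : GQ} (hσ : 𝔓.P.IsFrobeniusAt σ 𝔓.p)
    (x : JZero N) : mzrRho 𝔓 N hN (σ • x) = mzrPhi 𝔓 N • mzrRho 𝔓 N hN x := by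
  rw [mzrRho_apply, mzrRho_apply, t3pPull_galois]
  exact t3zRed_frobenius 𝔓 (N * mzrAux 𝔓) (mzr_h49 𝔓 N) (mzr_not_dvd 𝔓 N hN) hσ _

/-- **(R2)** the reduction map is injective on prime-to-`ℓ` torsion -/
theorem mzrRho_injective_torsion (hN : ¬ 𝔓.p ∣ N) {m : ℕ} (hm : ¬ 𝔓.p ∣ m) (x : JZero N)
    (hx : m • x = 0) (h0 : mzrRho 𝔓 N hN x = 0) : x = 0 := by
  have hm0 : m ≠ 0 := by
    rintro rfl
    exact hm (dvd_zero _)
  have hcop : Nat.Coprime m 𝔓.p := ((Nat.Prime.coprime_iff_not_dvd 𝔓.hp).mpr hm).symm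
  refine t3pPull_injective_torsion N (mzrAux 𝔓) hm0 x hx
    (t3zRed 𝔓 (N * mzrAux 𝔓) (mzr_h49 𝔓 N) (mzr_not_dvd 𝔓 N hN)) ?_ h0
  intro y hy hy0
  haveI : IsAlgClosed (IsLocalRing.ResidueField ↥𝔓.P) := tb_isAlgClosed_residueField 𝔓.P
  exact t3aRed_injective_torsion
    (t3a_good_modular 𝔓 (N * mzrAux 𝔓) (mzr_h49 𝔓 N) (mzr_not_dvd 𝔓 N hN)) hcop y hy hy0

/-- a rational point reduces to a Frobenius-fixed point -/
theorem mzrRho_fixed (hN : ¬ 𝔓.p ∣ N) {x : JZero N} (hx : ∀ σ : GQ, σ • x = x) :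
    mzrPhi 𝔓 N • mzrRho 𝔓 N hN x = mzrRho 𝔓 N hN x := by
  obtain ⟨σ, hσ⟩ := Fermat.Agent.Lib.Helper6.exists_isFrobeniusAt 𝔓.P 𝔓.hp 𝔓.hP
  rw [← mzrRho_frobenius 𝔓 N hN hσ, hx σ]

end Fermat.Agent.Mazur
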