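/-
MAZUR (Track M), package (R) (helper6), part 2: **reduction commutes with pull-back** (PB).

`φ : F₁ → F₂`, `φ̄ : F̄₁ → F̄₂` finite extensions of function fields of the same degree, `F₂` with good
reduction (`T3aGood`, reduction map of places `r = t3aR hg₂`); NO good reduction is required for `F₁`.
If all places of `F₂` over the place `P₁` of `F₁` reduce to places over the place `Q₁` of `F̄₁`, and
`f ∈ F₁` vanishes at `P₁`, reduces to a uniformiser `f̄` at `Q₁`, and no pole of `f` reduces to a place
over `Q₁`, then `r (φ^* P₁) = φ̄^* Q₁` as divisors.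

Proof: the conservation law `t3a_conservation` for `φ f` gives `≤` at every place, and both divisors
have the same degree.
-/
import Fermat.Agent.Lib.T3.Red.Cons2
import Fermat.Prelude.Def_AlgebraicCurve_Correspondence

set_option autoImplicit false
set_option linter.style.haveILetI false
set_option linter.unusedSectionVars false
set_option linter.unusedVariables false

namespace Fermat.Agent.Mazur

open AlgebraicCurve IntermediateField Fermat.Agent.Curve Fermat.Agent.Curve.PlaceAux
  Fermat.Agent.T1 Fermat.Agent.T3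

variable {K F₁ F₂ k Fb₁ Fb₂ : Type*} [Field K] [Field F₁] [Field F₂] [Algebra K F₁] [Algebra K F₂]
  [Field k] [Field Fb₁] [Field Fb₂] [Algebra k Fb₁] [Algebra k Fb₂]
  [IsAlgClosed K] [IsAlgClosed k]
  [HasPrincipalDivisors K F₂] [HasPrincipalDivisors k Fb₂]

open Classical in
/-- the pull-back of a single place, evaluated -/
theorem mzr_pullbackAlong_single_apply {K F F' : Type*} [Field K] [Field F] [Field F']
    [Algebra K F] [Algebra K F'] [HasPrincipalDivisors K F'] (φ : F →ₐ[K] F')
    (hφ : φ.toRingHom.IsIntegral) (P : Place K F) (w : Place K F') :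
    Divisor.pullbackAlong φ hφ (Finsupp.single P 1) w =
      if w.restrictAlong φ hφ = P then (Place.ramificationIndexAlong φ w : ℤ) else 0 := by
  rw [Divisor.pullbackAlong_apply, Finsupp.single_apply]
  by_cases h : w.restrictAlong φ hφ = P
  · rw [if_pos h, if_pos h.symm, mul_one]
  · rw [if_neg h, if_neg (fun h' => h h'.symm), mul_zero]

/-- **(PB)** reduction commutes with the pull-back of a place -/
theorem mzr_pullback_red (φ : F₁ →ₐ[K] F₂) (hφ : φ.toRingHom.IsIntegral)
    (hFI : FundamentalIdentityAlong K φ hφ)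
    (φb : Fb₁ →ₐ[k] Fb₂) (hφb : φb.toRingHom.IsIntegral)
    (hFIb : FundamentalIdentityAlong k φb hφb)
    (hdeg : finrankAlong K φ = finrankAlong k φb)
    {d₂ : TbBase K F₂ k Fb₂} {ℓ : ℕ} {x₂ : F₂} (hg₂ : T3aGood d₂ ℓ x₂)
    (P₁ : Place K F₁) (hP₁ : P₁.deg = 1) (Q₁ : Place k Fb₁) (hQ₁ : Q₁.deg = 1)
    (ha : ∀ w : Place K F₂, w.restrictAlong φ hφ = P₁ →
      (t3aR hg₂ w).restrictAlong φb hφb = Q₁)
    (f : F₁) (hfO : φ f ∈ d₂.Ov) (fb : Fb₁) (hres : d₂.res ⟨φ f, hfO⟩ = φb fb)
    (hfP : 0 < P₁.ord f) (hfb : Q₁.ord fb = 1)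
    (hpole : ∀ w : Place K F₂, w.ord (φ f) < 0 → (t3aR hg₂ w).restrictAlong φb hφb ≠ Q₁) :
    Finsupp.mapDomain (t3aR hg₂) (Divisor.pullbackAlong φ hφ (Finsupp.single P₁ 1)) =
      Divisor.pullbackAlong φb hφb (Finsupp.single Q₁ 1) := by
  classical
  haveI := hg₂.sep
  haveI := hg₂.sepb'
  set r := t3aR hg₂ with hr
  set D₁ := Divisor.pullbackAlong φ hφ (Finsupp.single P₁ 1) with hD₁
  set E₁ := Divisor.pullbackAlong φb hφb (Finsupp.single Q₁ 1) with hE₁
  have hfb0 : fb ≠ 0 := by
    rintro rfl
    rw [Q₁.ord_zero] at hfb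
    exact zero_ne_one hfb
  have hresne : d₂.res ⟨φ f, hfO⟩ ≠ 0 := by
    rw [hres]
    exact (map_ne_zero φb).mpr hfb0
  have hφf0 : φ f ≠ 0 := t3a_ne_zero_of_res_ne_zero d₂ hfO hresne
  have hf0 : f ≠ 0 := fun h => hφf0 (by rw [h, map_zero])
  -- the pointwise inequality
  have hle : Finsupp.mapDomain r D₁ ≤ E₁ := by
    intro Q
    by_cases hQ : Q.restrictAlong φb hφb = Q₁
    · -- conservation for `φ f`
      have hcons := t3a_conservation hg₂ hfO hresne (CurveP.divOf hg₂.gen (φ f))
        (fun P => CurveP.divOf_apply hg₂.gen hφf0 P) Q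
      have hEQ : E₁ Q = (Place.ramificationIndexAlong φb Q : ℤ) := by
        rw [hE₁, mzr_pullbackAlong_single_apply, if_pos hQ]
      have hordQ : Q.ord (d₂.res ⟨φ f, hfO⟩) = (Place.ramificationIndexAlong φb Q : ℤ) := by
        rw [hres, Place.ord_restrictAlong φb hφb, hQ, hfb, mul_one]
      rw [hEQ, ← hordQ, ← hcons]
      -- compare the two sums termwise
      have hnn : 0 ≤ Finsupp.mapDomain r (CurveP.divOf hg₂.gen (φ f) - D₁) Q := by
        rw [t3a_mapDomain_apply]
        refine Finset.sum_nonneg fun w _ => ?_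
        split_ifs with hw
        · rw [Finsupp.sub_apply, CurveP.divOf_apply hg₂.gen hφf0, hD₁,
            mzr_pullbackAlong_single_apply]
          have hnonneg : 0 ≤ w.ord (φ f) := by
            by_contra hneg
            push Not at hneg
            apply hpole w hneg
            rw [hw]
            exact hQ
          split_ifs with hwP
          · rw [Place.ord_restrictAlong φ hφ, hwP]
            have he : (0 : ℤ) ≤ (Place.ramificationIndexAlong φ w : ℤ) := Int.natCast_nonneg _
            nlinarith
          · rw [sub_zero]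
            exact hnonneg
        · exact le_rfl
      rw [Finsupp.mapDomain_sub, Finsupp.sub_apply] at hnn
      exact sub_nonneg.mp hnn
    · -- no place over `P₁` reduces to `Q`
      have h0 : Finsupp.mapDomain r D₁ Q = 0 := by
        rw [t3a_mapDomain_apply]
        refine Finset.sum_eq_zero fun w _ => ?_
        split_ifs with hw
        · rw [hD₁, mzr_pullbackAlong_single_apply]
          split_ifs with hwP
          · exfalso
            apply hQ
            rw [← hw]
            exact ha w hwP
          · rfl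
        · rfl
      rw [h0, hE₁, mzr_pullbackAlong_single_apply, if_neg hQ]
  -- the degrees agree
  have hdegD : Divisor.degree (Finsupp.mapDomain r D₁) = (finrankAlong K φ : ℤ) := by
    rw [t3a_degree_mapDomain hg₂.gen hg₂.genb' r, hD₁, Divisor.degree_pullbackAlong φ hφ hFI,
      Divisor.degree_single, hP₁]
    simp
  have hdegE : Divisor.degree E₁ = (finrankAlong k φb : ℤ) := by
    rw [hE₁, Divisor.degree_pullbackAlong φb hφb hFIb, Divisor.degree_single, hQ₁]
    simp
  have hnn : 0 ≤ E₁ - Finsupp.mapDomain r D₁ := sub_nonneg.mpr hle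
  have hd0 : Divisor.degree (E₁ - Finsupp.mapDomain r D₁) = 0 := by
    rw [map_sub, hdegD, hdegE, hdeg, sub_self]
  have h0 := tw_eq_zero_of_nonneg_of_degree hg₂.genb' hnn hd0
  exact (sub_eq_zero.mp h0).symm

end Fermat.Agent.Mazur
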