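/-
MAZUR (Track M), package (R) (helper6), part 8: **the fundamental identity `∑ e = n` for separable
extensions of function fields in any characteristic**.

`k` algebraically closed, `F ⊆ F'` function fields of one variable over `k`, `F' / F` separable.  Then
for every place `v` of `F`: `∑_{w ∣ v} e(w ∣ v) = [F' : F]` (`mzr_fundamentalIdentity`,
`mzr_fundamentalIdentityAlong`).  (T3-H proves this in characteristic `0` through the norm formula; the
proof here uses Riemann–Roch: a separating function `g ∈ F` with `v` as its only pole has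
`[F : k(g)] = -ord_v g` and `[F' : k(g)] = ∑_{w ∣ v} e(w) (-ord_v g)`.)

Also: the tower law `[F : k(g)] [F' : F] = [F' : k(g)]` (`mzr_finrank_tower`) and transitivity of
separating elements (`mzr_isSeparable_adjoin_map`).
-/
import Fermat.Agent.Lib.CurveP.RiemannRoch
import Fermat.Prelude.Def_AlgebraicCurve_Correspondence

set_option autoImplicit false
set_option linter.style.haveILetI false
set_option linter.unusedSectionVars false
set_option linter.unusedVariables false

namespace Fermat.Agent.Mazur

open AlgebraicCurve IntermediateField Fermat.Agent.Curve Fermat.Agent.Curve.PlaceAux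
  Fermat.Agent.CurveP Module

section Tower

variable {k F F' : Type*} [Field k] [Field F] [Field F'] [Algebra k F] [Algebra k F']
  [Algebra F F'] [IsScalarTower k F F']

/-- the canonical identification `k(g) ≃ k(g')`, `g' = algebraMap F F' g` -/
noncomputable def mzrAdjoinEquiv (g : F) : ↥(k⟮g⟯) ≃ₐ[k] ↥(k⟮algebraMap F F' g⟯) :=
  ((k⟮g⟯).equivMap (IsScalarTower.toAlgHom k F F')).trans
    (IntermediateField.equivOfEq (by
      rw [IntermediateField.adjoin_map, Set.image_singleton]
      rfl))

theorem mzrAdjoinEquiv_coe (g : F) (z : ↥(k⟮g⟯)) :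
    ((mzrAdjoinEquiv (k := k) (F' := F') g z : ↥(k⟮algebraMap F F' g⟯)) : F') =
      algebraMap F F' (z : F) := rfl

/-- **the tower law** `[F : k(g)] [F' : F] = [F' : k(g)]` -/
theorem mzr_finrank_tower (g : F) :
    finrank ↥(k⟮g⟯) F * finrank F F' = finrank ↥(k⟮algebraMap F F' g⟯) F' := by
  set K₀ : IntermediateField k F := k⟮g⟯ with hK₀
  have h1 : finrank K₀ F * finrank F F' = finrank K₀ F' := Module.finrank_mul_finrank K₀ F F'
  have h2 : finrank K₀ F' = finrank ↥(k⟮algebraMap F F' g⟯) F' := by
    refine Algebra.finrank_eq_of_equiv_equiv (mzrAdjoinEquiv (k := k) (F' := F') g).toRingEquiv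
      (RingEquiv.refl _) ?_
    ext z
    rfl
  rw [h1, h2]

/-- a separating element of `F` is a separating element of a separable extension `F'` -/
theorem mzr_isSeparable_adjoin_map [Algebra.IsSeparable F F'] (g : F)
    [Algebra.IsSeparable ↥(k⟮g⟯) F] : Algebra.IsSeparable ↥(k⟮algebraMap F F' g⟯) F' := by
  set K₀ : IntermediateField k F := k⟮g⟯ with hK₀
  haveI : Algebra.IsSeparable K₀ F' := Algebra.IsSeparable.trans K₀ F F'
  refine Algebra.IsSeparable.of_equiv_equiv (mzrAdjoinEquiv (k := k) (F' := F') g).toRingEquiv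
    (RingEquiv.refl _) ?_
  ext z
  rfl

/-- if a separating element of `F` stays separating in `F'` then `F' / F` is separable -/
theorem mzr_isSeparable_of_adjoin_map (g : F)
    [Algebra.IsSeparable ↥(k⟮algebraMap F F' g⟯) F'] : Algebra.IsSeparable F F' := by
  set K₀ : IntermediateField k F := k⟮g⟯ with hK₀
  haveI : Algebra.IsSeparable K₀ F' := by
    refine Algebra.IsSeparable.of_equiv_equiv
      (mzrAdjoinEquiv (k := k) (F' := F') g).symm.toRingEquiv (RingEquiv.refl _) ?_
    ext z
    show ((mzrAdjoinEquiv (k := k) (F' := F') g ((mzrAdjoinEquiv (k := k) (F' := F') g).symm z) :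
      ↥(k⟮algebraMap F F' g⟯)) : F') = _
    rw [AlgEquiv.apply_symm_apply]
    rfl
  exact Algebra.isSeparable_tower_top_of_isSeparable K₀ F F'

end Tower

section FI

variable {k F F' : Type*} [Field k] [Field F] [Field F'] [Algebra k F] [Algebra k F']
  [Algebra F F'] [IsScalarTower k F F'] [Algebra.IsIntegral F F'] [HasPrincipalDivisors k F']
  [IsAlgClosed k]

/-- a function with a given place as its only pole -/
theorem mzr_exists_single_pole {x : F} (hx : IsFunctionFieldGen k F x)
    [Algebra.IsSeparable ↥(k⟮x⟯) F] (v : Place k F) :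
    ∃ h : F, h ∉ Set.range (algebraMap k F) ∧ v.ord h < 0 ∧
      ∀ w : Place k F, w ≠ v → 0 ≤ w.ord h := by
  classical
  set gF : ℕ := genusR k F with hgF
  set D : Divisor k F := Finsupp.single v ((gF : ℤ) + 1) with hD
  have hdeg : Divisor.degree D = (gF : ℤ) + 1 := by
    rw [hD, Divisor.degree_single, deg_eq_one hx v]
    simp
  have hell : 2 ≤ ell D := by
    have h1 := le_ell hx D
    rw [hdeg] at h1
    have : (2 : ℤ) ≤ (ell D : ℤ) := by omega
    exact_mod_cast this
  -- a nonconstant element of `L(D)`
  have hex : ∃ h ∈ riemannRochSpace D, h ∉ Set.range (algebraMap k F) := by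
    by_contra hall
    push Not at hall
    have hle : riemannRochSpace D ≤ Submodule.span k {(1 : F)} := by
      intro h hh
      obtain ⟨c, rfl⟩ := hall h hh
      rw [Algebra.algebraMap_eq_smul_one]
      exact Submodule.smul_mem _ c (Submodule.mem_span_singleton_self 1)
    have h1 := Submodule.finrank_mono hle
    rw [finrank_span_singleton (one_ne_zero : (1 : F) ≠ 0)] at h1
    have h2 : ell D ≤ 1 := h1
    omega
  obtain ⟨h, hh, hconst⟩ := hex
  have hh0 : h ≠ 0 := by
    rintro rfl
    exact hconst ⟨0, map_zero _⟩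
  have hord : ∀ w : Place k F, -D w ≤ w.ord h := fun w =>
    ((mem_riemannRochSpace_iff.mp hh) w).resolve_left hh0
  have hother : ∀ w : Place k F, w ≠ v → 0 ≤ w.ord h := by
    intro w hw
    have := hord w
    rwa [hD, Finsupp.single_apply, if_neg (Ne.symm hw), neg_zero] at this
  refine ⟨h, hconst, ?_, hother⟩
  by_contra hv
  push Not at hv
  apply hconst
  have hmem : h ∈ riemannRochSpace (0 : Divisor k F) := by
    rw [mem_riemannRochSpace_iff]
    intro w
    right
    rw [Finsupp.zero_apply, neg_zero]
    by_cases hw : w = v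
    · rw [hw]; exact hv
    · exact hother w hw
  rw [riemannRochSpace_zero hx] at hmem
  obtain ⟨c, hc⟩ := hmem
  exact ⟨c, hc⟩

/-- **the fundamental identity** for a separable extension of function fields -/
theorem mzr_fundamentalIdentity {x : F} (hx : IsFunctionFieldGen k F x)
    [Algebra.IsSeparable ↥(k⟮x⟯) F] {x' : F'} (hx' : IsFunctionFieldGen k F' x')
    [Algebra.IsSeparable F F'] : FundamentalIdentity k F F' := by
  classical
  refine ⟨fun v => ?_⟩
  obtain ⟨h, hconst, hv, hother⟩ := mzr_exists_single_pole hx v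
  obtain ⟨g, n, hn, rfl, hgK, hgsep⟩ := exists_isSeparable_pow_eq hx hconst
  have hg0 : g ≠ 0 := by
    rintro rfl
    exact hgK ⟨0, map_zero _⟩
  have hpow : ∀ w : Place k F, w.ord (g ^ n) = (n : ℤ) * w.ord g := fun w => by
    rw [← zpow_natCast, w.ord_zpow]
  have hn' : (0 : ℤ) < n := by exact_mod_cast hn
  have hgv : v.ord g < 0 := by
    have := hv
    rw [hpow] at this
    by_contra hcon
    push Not at hcon
    nlinarith
  have hgother : ∀ w : Place k F, w ≠ v → 0 ≤ w.ord g := by
    intro w hw
    have := hother w hw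
    rw [hpow] at this
    by_contra hcon
    push Not at hcon
    nlinarith
  -- `[F : k(g)] = -ord_v g`
  have hgen : IsFunctionFieldGen k F g := isFunctionFieldGen_of_notMem_range hx hgK
  have hpoles : {w : Place k F | w.ord g < 0} = {v} := by
    ext w
    simp only [Set.mem_ofPred_eq, Set.mem_singleton_iff]
    constructor
    · intro hw
      by_contra hne
      have := hgother w hne
      omega
    · rintro rfl
      exact hgv
  have h1 := sum_ord_poles hgen
  rw [hpoles, finsum_mem_singleton] at h1
  -- `[F' : k(g)] = ∑_{w ∣ v} e(w) (-ord_v g)`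
  set g' : F' := algebraMap F F' g with hg'
  have hg'K : g' ∉ Set.range (algebraMap k F') := by
    rintro ⟨c, hc⟩
    apply hgK
    refine ⟨c, (algebraMap F F').injective ?_⟩
    rw [← IsScalarTower.algebraMap_apply, hc]
  have hgen' : IsFunctionFieldGen k F' g' := isFunctionFieldGen_of_notMem_range hx' hg'K
  haveI : Algebra.IsSeparable ↥(k⟮g'⟯) F' := mzr_isSeparable_adjoin_map g
  have h2 := sum_ord_poles hgen'
  have hpoles' : {W : Place k F' | W.ord g' < 0} = ((v.fiber F' : Finset (Place k F')) : Set _) := by
    ext W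
    simp only [Set.mem_ofPred_eq, Finset.mem_coe, Place.mem_fiber]
    have he : (0 : ℤ) < (W.ramificationIndex F : ℤ) := by
      exact_mod_cast W.ramificationIndex_pos (F := F)
    rw [hg', W.ord_restrict g]
    constructor
    · intro hW
      by_contra hne
      have := hgother (W.restrict F) hne
      nlinarith
    · intro hW
      rw [hW]
      nlinarith
  rw [hpoles', finsum_mem_coe_finset, ← mzr_finrank_tower g] at h2
  push_cast at h2
  rw [← h1] at h2
  -- conclusion
  rw [deg_eq_one hx v, Nat.cast_one, mul_one]
  have h3 : ∑ W ∈ v.fiber F', -W.ord g' =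
      (∑ W ∈ v.fiber F', (W.ramificationIndex F : ℤ)) * (-v.ord g) := by
    rw [Finset.sum_mul]
    refine Finset.sum_congr rfl fun W hW => ?_
    rw [hg', W.ord_restrict g, Place.mem_fiber.mp hW]
    ring
  rw [h3] at h2
  have hm : (0 : ℤ) < -v.ord g := by omega
  have h4 : (∑ W ∈ v.fiber F', (W.ramificationIndex F : ℤ)) = (finrank F F' : ℤ) := by
    have h5 : (∑ W ∈ v.fiber F', (W.ramificationIndex F : ℤ)) * (-v.ord g) =
        (finrank F F' : ℤ) * (-v.ord g) := by
      rw [h2]
      ring
    exact mul_right_cancel₀ hm.ne' h5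
  rw [← h4]
  refine Finset.sum_congr rfl fun W _ => ?_
  rw [deg_eq_one hx' W, Nat.cast_one, mul_one]

end FI

section Along

variable {k F F' : Type*} [Field k] [Field F] [Field F'] [Algebra k F] [Algebra k F']
  [IsAlgClosed k]

/-- **the fundamental identity along a homomorphism of function fields**, `F' / φ F` separable -/
theorem mzr_fundamentalIdentityAlong {x : F} (hx : IsFunctionFieldGen k F x)
    [Algebra.IsSeparable ↥(k⟮x⟯) F] {x' : F'} (hx' : IsFunctionFieldGen k F' x')
    (φ : F →ₐ[k] F') (hφ : φ.toRingHom.IsIntegral) [HasPrincipalDivisors k F']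
    (hsep : letI := algebraAlong φ; Algebra.IsSeparable F F') :
    FundamentalIdentityAlong k φ hφ := by
  letI := algebraAlong φ
  haveI := isScalarTower_along φ
  haveI := isIntegral_along φ hφ
  haveI : Algebra.IsSeparable F F' := hsep
  show FundamentalIdentity k F F'
  exact mzr_fundamentalIdentity hx hx'

/-- the tower law along a homomorphism -/
theorem mzr_finrank_tower_along (φ : F →ₐ[k] F') (g : F) :
    finrank ↥(k⟮g⟯) F * finrankAlong k φ = finrank ↥(k⟮φ g⟯) F' := by
  letI := algebraAlong φ
  haveI := isScalarTower_along φ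
  exact mzr_finrank_tower g

/-- separability along a homomorphism from a separating element -/
theorem mzr_isSeparable_along (φ : F →ₐ[k] F') (g : F)
    [h : Algebra.IsSeparable ↥(k⟮φ g⟯) F'] :
    letI := algebraAlong φ; Algebra.IsSeparable F F' := by
  letI := algebraAlong φ
  haveI := isScalarTower_along φ
  haveI : Algebra.IsSeparable ↥(k⟮algebraMap F F' g⟯) F' := h
  exact mzr_isSeparable_of_adjoin_map (k := k) g

end Along

end Fermat.Agent.Mazur
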