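/-
MAZUR (Track M), package (R) (helper6), part 6: **the Fricke involution of `k(j̄, j̄_p)` and its two
cuspidal places in arbitrary characteristic**.

`Lib/Eis/Geom/{Fricke,CuspPlaces}.lean` (P11) construct the involution `σ` (`j̄ ↔ j̄_p`) of
`F' = EhField k p = k(j̄, j̄_p) ⊆ k((q))` and the places `x_∞`, `x_0 = x_∞ ∘ σ` in characteristic `2`;
the only input specific to characteristic `2` is the degree `[F' : k(j̄)] = p + 1`.  Here the same
construction is carried out for any field `k` from the HYPOTHESIS `hdeg : [F' : k(j̄)] = p + 1`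
(which T1-A supplies whenever `char k ∤ p`).

* `mzrFricke k p hp hdeg : F' ≃ₐ[k] F'`, `σ j̄ = j̄_p`, `σ j̄_p = j̄`, `σ² = 1`;
* `mzrPlaceZero k p hp hdeg`, `ord_{x_0} f = ord_q (σ f)`; `ord_{x_0} j̄ = -p`, `ord_{x_0} j̄_p = -1`;
* `mzr_eq_of_ord_ehX_neg` : the poles of `j̄` are exactly `x_∞` and `x_0`;
* `mzr_eq_inf_of_ord`, `mzr_eq_zero_of_ord` : a pole `v` of `j̄` is `x_∞` (resp. `x_0`) as soon as
  `j̄_p / j̄^p` is a unit at `v` (resp. vanishes at `v`).
-/
import Fermat.Agent.Lib.Eis.Geom.CuspPlaces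

set_option autoImplicit false
set_option linter.style.haveILetI false
set_option linter.unusedSectionVars false
set_option linter.unusedVariables false

open HahnSeries ModularCurve IntermediateField Polynomial AlgebraicCurve
open Fermat.Agent.Igusa Fermat.Agent.Eis Fermat.Agent.Curve

noncomputable section

namespace Fermat.Agent.Mazur

section Involution

variable (k : Type*) [Field k] (p : ℕ) [NeZero p] (hp : p.Prime)
  (hdeg : Module.finrank ↥(k⟮ehX k p⟯) (EhField k p) = p + 1)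

include hdeg in
/-- `Φ_p(X, j̄)` is the minimal polynomial of `j̄_p` over `k(j̄)` (inside `F'`) -/
theorem mzrf_minpoly_ehY :
    minpoly ↥(k⟮ehX k p⟯) (ehY k p) = ehPhiF k p hp := by
  have hint := eh_isIntegral_ehY k p hp
  have hdvd : minpoly ↥(k⟮ehX k p⟯) (ehY k p) ∣ ehPhiF k p hp :=
    minpoly.dvd _ _ (by rw [Polynomial.aeval_def]; exact ehPhiF_eval k p hp)
  have hdeg' : (ehPhiF k p hp).natDegree ≤ (minpoly ↥(k⟮ehX k p⟯) (ehY k p)).natDegree := by
    rw [ehPhiF_natDegree, ← IntermediateField.adjoin.finrank hint, eh_adjoin_ehY_eq_top,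
      IntermediateField.finrank_top', hdeg]
  exact (Polynomial.eq_of_monic_of_dvd_of_natDegree_le (minpoly.monic hint)
    (ehPhiF_monic k p hp) hdvd hdeg').symm

include hdeg in
theorem mzrf_irreducible : Irreducible (ehPhiF k p hp) := by
  rw [← mzrf_minpoly_ehY k p hp hdeg]
  exact minpoly.irreducible (eh_isIntegral_ehY k p hp)

include hdeg in
theorem mzrf_pres_bijective : Function.Bijective (ehPres k p hp) := by
  have : Fact (Irreducible (ehPhiF k p hp)) := ⟨mzrf_irreducible k p hp hdeg⟩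
  refine ⟨(ehPres k p hp).injective, fun z => ?_⟩
  refine eh_mem_of_subfield k p (ehPres k p hp).fieldRange (fun c => ?_) ?_ ?_ z
  · refine ⟨AdjoinRoot.of _ (algebraMap k ↥(k⟮ehX k p⟯) c), ?_⟩
    rw [ehPres_of, ← IsScalarTower.algebraMap_apply k ↥(k⟮ehX k p⟯) (EhField k p)]
  · exact ⟨AdjoinRoot.of _ (AdjoinSimple.gen k (ehX k p)), ehPres_of k p hp _⟩
  · exact ⟨AdjoinRoot.root _, ehPres_root k p hp⟩

/-- the presentation `k(j̄)[X]/(Φ_p(X, j̄)) ≃ F'` -/
def mzrfPresEquiv : AdjoinRoot (ehPhiF k p hp) ≃+* EhField k p :=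
  RingEquiv.ofBijective (ehPres k p hp) (mzrf_pres_bijective k p hp hdeg)

theorem mzrfPresEquiv_apply (a : AdjoinRoot (ehPhiF k p hp)) :
    mzrfPresEquiv k p hp hdeg a = ehPres k p hp a := rfl

/-- the Fricke involution as a ring endomorphism of `F'` -/
def mzrFrickeHom : EhField k p →+* EhField k p :=
  (ehSwap₁ k p hp).comp (mzrfPresEquiv k p hp hdeg).symm.toRingHom

theorem mzrFrickeHom_algebraMap (c : k) :
    mzrFrickeHom k p hp hdeg (algebraMap k (EhField k p) c) = algebraMap k (EhField k p) c := by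
  have h1 : (mzrfPresEquiv k p hp hdeg).symm (algebraMap k (EhField k p) c) =
      AdjoinRoot.of _ (algebraMap k ↥(k⟮ehX k p⟯) c) := by
    rw [RingEquiv.symm_apply_eq, mzrfPresEquiv_apply, ehPres_of,
      ← IsScalarTower.algebraMap_apply k ↥(k⟮ehX k p⟯) (EhField k p)]
  show ehSwap₁ k p hp ((mzrfPresEquiv k p hp hdeg).symm (algebraMap k (EhField k p) c)) = _
  rw [h1, ehSwap₁, AdjoinRoot.lift_of]
  exact (ehSwap₀ k p).commutes c

theorem mzrFrickeHom_ehX : mzrFrickeHom k p hp hdeg (ehX k p) = ehY k p := by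
  have h1 : (mzrfPresEquiv k p hp hdeg).symm (ehX k p) =
      AdjoinRoot.of _ (AdjoinSimple.gen k (ehX k p)) := by
    rw [RingEquiv.symm_apply_eq, mzrfPresEquiv_apply, ehPres_of]
    rfl
  show ehSwap₁ k p hp ((mzrfPresEquiv k p hp hdeg).symm (ehX k p)) = _
  rw [h1, ehSwap₁, AdjoinRoot.lift_of]
  exact ehSwap₀_gen k p

theorem mzrFrickeHom_ehY : mzrFrickeHom k p hp hdeg (ehY k p) = ehX k p := by
  have h1 : (mzrfPresEquiv k p hp hdeg).symm (ehY k p) = AdjoinRoot.root _ := by
    rw [RingEquiv.symm_apply_eq, mzrfPresEquiv_apply, ehPres_root]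
  show ehSwap₁ k p hp ((mzrfPresEquiv k p hp hdeg).symm (ehY k p)) = _
  rw [h1, ehSwap₁, AdjoinRoot.lift_root]

theorem mzrFrickeHom_involutive (z : EhField k p) :
    mzrFrickeHom k p hp hdeg (mzrFrickeHom k p hp hdeg z) = z := by
  have h : (mzrFrickeHom k p hp hdeg).comp (mzrFrickeHom k p hp hdeg) = RingHom.id _ := by
    apply eh_ringHom_ext k p
    · intro c
      rw [RingHom.comp_apply, mzrFrickeHom_algebraMap, mzrFrickeHom_algebraMap, RingHom.id_apply]
    · rw [RingHom.comp_apply, mzrFrickeHom_ehX, mzrFrickeHom_ehY, RingHom.id_apply]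
    · rw [RingHom.comp_apply, mzrFrickeHom_ehY, mzrFrickeHom_ehX, RingHom.id_apply]
  exact congrArg (fun f : EhField k p →+* EhField k p => f z) h

/-- **the Fricke involution** `σ` of `F' = k(j̄, j̄_p)`, from `[F' : k(j̄)] = p + 1` -/
def mzrFricke : EhField k p ≃ₐ[k] EhField k p where
  toFun := mzrFrickeHom k p hp hdeg
  invFun := mzrFrickeHom k p hp hdeg
  left_inv := mzrFrickeHom_involutive k p hp hdeg
  right_inv := mzrFrickeHom_involutive k p hp hdeg
  map_mul' := map_mul _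
  map_add' := map_add _
  commutes' := mzrFrickeHom_algebraMap k p hp hdeg

@[simp] theorem mzrFricke_ehX : mzrFricke k p hp hdeg (ehX k p) = ehY k p :=
  mzrFrickeHom_ehX k p hp hdeg

@[simp] theorem mzrFricke_ehY : mzrFricke k p hp hdeg (ehY k p) = ehX k p :=
  mzrFrickeHom_ehY k p hp hdeg

@[simp] theorem mzrFricke_mzrFricke (z : EhField k p) :
    mzrFricke k p hp hdeg (mzrFricke k p hp hdeg z) = z := mzrFrickeHom_involutive k p hp hdeg z

theorem mzrFricke_symm : (mzrFricke k p hp hdeg).symm = mzrFricke k p hp hdeg := by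
  ext z
  rw [AlgEquiv.symm_apply_eq, mzrFricke_mzrFricke]

end Involution

/-! ### The place `x_0 = x_∞ ∘ σ` and the poles of `j̄` -/

section PlaceZero

variable (k : Type*) [Field k] (p : ℕ) [NeZero p] (hp : p.Prime)
  (hdeg : Module.finrank ↥(k⟮ehX k p⟯) (EhField k p) = p + 1)

/-- **the place `x_0`** of `F'`: the transport of `x_∞` along the Fricke involution -/
def mzrPlaceZero : Place k (EhField k p) :=
  placeMap (mzrFricke k p hp hdeg) (ehPlaceInf k p)

/-- `ord_{x_0} f` is the `q`-order of `σ f` -/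
theorem mzrPlaceZero_ord (f : EhField k p) :
    (mzrPlaceZero k p hp hdeg).ord f = (ehEmb k p (mzrFricke k p hp hdeg f)).order := by
  rw [mzrPlaceZero, placeMap_ord', mzrFricke_symm, ehPlaceInf_ord]

theorem mzrPlaceZero_ord_eq (f : EhField k p) :
    (mzrPlaceZero k p hp hdeg).ord f = (ehPlaceInf k p).ord (mzrFricke k p hp hdeg f) := by
  rw [mzrPlaceZero_ord, ehPlaceInf_ord]

theorem mzr_ehPlaceInf_ord_fricke (f : EhField k p) :
    (ehPlaceInf k p).ord f = (mzrPlaceZero k p hp hdeg).ord (mzrFricke k p hp hdeg f) := by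
  rw [mzrPlaceZero_ord_eq, mzrFricke_mzrFricke]

theorem mzrPlaceZero_ord_ehX : (mzrPlaceZero k p hp hdeg).ord (ehX k p) = -(p : ℤ) := by
  rw [mzrPlaceZero_ord_eq, mzrFricke_ehX, ehPlaceInf_ord_ehY]

theorem mzrPlaceZero_ord_ehY : (mzrPlaceZero k p hp hdeg).ord (ehY k p) = -1 := by
  rw [mzrPlaceZero_ord_eq, mzrFricke_ehY, ehPlaceInf_ord_ehX]

theorem mzr_ehPlaceInf_ne_placeZero : ehPlaceInf k p ≠ mzrPlaceZero k p hp hdeg := by
  intro h
  have h1 := ehPlaceInf_ord_ehX k p
  rw [h, mzrPlaceZero_ord_ehX] at h1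
  have := hp.one_lt
  omega

variable [IsAlgClosed k] (hgen : IsFunctionFieldGen k (EhField k p) (ehX k p))
  [hsep : Algebra.IsSeparable ↥(k⟮ehX k p⟯) (EhField k p)]

include hgen in
/-- **the poles of `j̄`** are exactly `x_∞` (simple) and `x_0` (of order `p`) -/
theorem mzr_eq_of_ord_ehX_neg (v : Place k (EhField k p))
    (hv : v.ord (ehX k p) < 0) : v = ehPlaceInf k p ∨ v = mzrPlaceZero k p hp hdeg := by
  classical
  have hfin := Fermat.Agent.CurveP.finite_poles hgen
  have hsum := Fermat.Agent.CurveP.sum_ord_poles hgen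
  rw [hdeg, finsum_mem_eq_finite_toFinset_sum _ hfin] at hsum
  by_contra hcon
  push Not at hcon
  have hmem : ∀ w : Place k (EhField k p), w ∈ hfin.toFinset ↔ w.ord (ehX k p) < 0 := fun w => by
    rw [Set.Finite.mem_toFinset, Set.mem_ofPred_eq]
  have h1 : ehPlaceInf k p ∈ hfin.toFinset := by
    rw [hmem, ehPlaceInf_ord_ehX]; norm_num
  have h2 : mzrPlaceZero k p hp hdeg ∈ hfin.toFinset := by
    rw [hmem, mzrPlaceZero_ord_ehX]
    have := hp.pos
    omega
  have h3 : v ∈ hfin.toFinset := (hmem v).mpr hv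
  have hsub : ({ehPlaceInf k p, mzrPlaceZero k p hp hdeg, v} : Finset (Place k (EhField k p))) ⊆
      hfin.toFinset := by
    intro w hw
    simp only [Finset.mem_insert, Finset.mem_singleton] at hw
    rcases hw with rfl | rfl | rfl
    · exact h1
    · exact h2
    · exact h3
  have hle := Finset.sum_le_sum_of_subset_of_nonneg (f := fun w : Place k (EhField k p) =>
    -w.ord (ehX k p)) hsub (fun w hw _ => by
      have := (hmem w).mp hw
      omega)
  rw [hsum] at hle
  rw [Finset.sum_insert (by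
      simp only [Finset.mem_insert, Finset.mem_singleton, not_or]
      exact ⟨mzr_ehPlaceInf_ne_placeZero k p hp hdeg, hcon.1.symm⟩),
    Finset.sum_insert (by
      simp only [Finset.mem_singleton]
      exact hcon.2.symm),
    Finset.sum_singleton, ehPlaceInf_ord_ehX, mzrPlaceZero_ord_ehX] at hle
  push_cast at hle
  omega

/-- the order of `j̄_p / j̄^p` at `x_∞` is `0` -/
theorem mzr_ehPlaceInf_ord_quot :
    (ehPlaceInf k p).ord (ehY k p * (ehX k p)⁻¹ ^ p) = 0 := by
  rw [Place.ord_mul _ (ehY_ne_zero k p) (pow_ne_zero _ (inv_ne_zero (ehX_ne_zero k p))),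
    ← zpow_natCast, Place.ord_zpow, Place.ord_inv, ehPlaceInf_ord_ehX, ehPlaceInf_ord_ehY]
  ring

/-- the order of `j̄_p / j̄^p` at `x_0` is `p² - 1` -/
theorem mzrPlaceZero_ord_quot :
    (mzrPlaceZero k p hp hdeg).ord (ehY k p * (ehX k p)⁻¹ ^ p) = (p : ℤ) * p - 1 := by
  rw [Place.ord_mul _ (ehY_ne_zero k p) (pow_ne_zero _ (inv_ne_zero (ehX_ne_zero k p))),
    ← zpow_natCast, Place.ord_zpow, Place.ord_inv, mzrPlaceZero_ord_ehX, mzrPlaceZero_ord_ehY]
  ring

include hp hdeg hgen in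
/-- a pole of `j̄` at which `j̄_p / j̄^p` is a unit is `x_∞` -/
theorem mzr_eq_inf_of_ord (v : Place k (EhField k p)) (hv : v.ord (ehX k p) < 0)
    (hq : v.ord (ehY k p * (ehX k p)⁻¹ ^ p) ≤ 0) : v = ehPlaceInf k p := by
  rcases mzr_eq_of_ord_ehX_neg k p hp hdeg hgen v hv with h | h
  · exact h
  · exfalso
    rw [h, mzrPlaceZero_ord_quot] at hq
    have h2 : (2 : ℤ) ≤ p := by exact_mod_cast hp.two_le
    nlinarith

include hgen in
/-- a pole of `j̄` at which `j̄_p / j̄^p` vanishes is `x_0` -/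
theorem mzr_eq_zero_of_ord (v : Place k (EhField k p)) (hv : v.ord (ehX k p) < 0)
    (hq : 0 < v.ord (ehY k p * (ehX k p)⁻¹ ^ p)) : v = mzrPlaceZero k p hp hdeg := by
  rcases mzr_eq_of_ord_ehX_neg k p hp hdeg hgen v hv with h | h
  · exfalso
    rw [h, mzr_ehPlaceInf_ord_quot] at hq
    exact lt_irrefl _ hq
  · exact h

end PlaceZero

end Fermat.Agent.Mazur
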