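/-
MAZUR (Track M), package (R) (helper6), part 7: **the two cusps of the reduced curve `X̄₀(p)`**.

`k` algebraically closed, `p` prime, `(p : k) ≠ 0`; `F̄ = TaBar k p = k(j̄, j̄_p) ⊆ k((q))` (the reduced
function field of T1-A; for `k = κ(𝔓)` it is `tbBarF 𝔓 p`).

* `mzrbEquiv : EhField k p ≃ₐ[k] TaBar k p` (the two incarnations of `k(j̄, j̄_p)`);
* `mzrbInf k p hp` (the place of the `q`-expansion), `mzrbZero k p hp hN` (its Fricke transform);
  `ord_∞ f = ord_q f`; `ord_∞ j̄ = -1`, `ord_∞ j̄_p = -p`, `ord_0 j̄ = -p`, `ord_0 j̄_p = -1`;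
* `mzrb_eq_inf`, `mzrb_eq_zero` : a pole `Q` of `j̄` with `ord_Q (j̄_p / j̄^p) ≤ 0` is `∞`, with
  `ord_Q (j̄_p / j̄^p) > 0` it is `0`.
-/
import Fermat.Agent.Lib.Mazur.Red.Fricke
import Fermat.Agent.Lib.T1.GoodRed.BarDegree
import Fermat.Agent.Lib.Eis.Geom.GenusNumerics

set_option autoImplicit false
set_option linter.style.haveILetI false
set_option linter.unusedSectionVars false
set_option linter.unusedVariables false

open HahnSeries ModularCurve IntermediateField Polynomial AlgebraicCurve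
open Fermat.Agent.Igusa Fermat.Agent.Eis Fermat.Agent.Curve Fermat.Agent.T1

noncomputable section

namespace Fermat.Agent.Mazur

/-! ### Transport of `k(x) ⊆ F` along an isomorphism -/

section Transport

variable {k F F' : Type*} [Field k] [Field F] [Field F'] [Algebra k F] [Algebra k F']

theorem mzrb_exists_transport (e : F ≃ₐ[k] F') (x : F) :
    ∃ e₁ : ↥(k⟮x⟯) ≃+* ↥(k⟮e x⟯),
      (algebraMap ↥(k⟮e x⟯) F').comp (e₁ : ↥(k⟮x⟯) →+* ↥(k⟮e x⟯)) =
        (e : F →+* F').comp (algebraMap ↥(k⟮x⟯) F) := by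
  have hmap : (k⟮x⟯).map (e : F →ₐ[k] F') = k⟮e x⟯ := by
    rw [IntermediateField.adjoin_map, Set.image_singleton]
    rfl
  let e₀ : ↥(k⟮x⟯) ≃ₐ[k] ↥(k⟮e x⟯) :=
    ((k⟮x⟯).equivMap (e : F →ₐ[k] F')).trans (IntermediateField.equivOfEq hmap)
  refine ⟨e₀.toRingEquiv, ?_⟩
  ext z
  rfl

theorem mzrb_finrank_transport (e : F ≃ₐ[k] F') (x : F) :
    Module.finrank ↥(k⟮x⟯) F = Module.finrank ↥(k⟮e x⟯) F' := by
  obtain ⟨e₁, he⟩ := mzrb_exists_transport e x
  exact Algebra.finrank_eq_of_equiv_equiv e₁ e.toRingEquiv he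

theorem mzrb_isSeparable_transport (e : F ≃ₐ[k] F') (x : F)
    (h : Algebra.IsSeparable ↥(k⟮x⟯) F) : Algebra.IsSeparable ↥(k⟮e x⟯) F' := by
  obtain ⟨e₁, he⟩ := mzrb_exists_transport e x
  exact Algebra.IsSeparable.of_equiv_equiv e₁ e.toRingEquiv he

theorem mzrb_isFunctionFieldGen_transport (e : F ≃ₐ[k] F') (x : F)
    (h : IsFunctionFieldGen k F x) : IsFunctionFieldGen k F' (e x) := by
  refine ⟨?_, ?_⟩
  · intro halg
    apply h.transcendental
    obtain ⟨P, hP0, hP⟩ := halg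
    refine ⟨P, hP0, ?_⟩
    apply e.injective
    rw [map_zero, ← hP, Polynomial.aeval_algHom_apply]
  · haveI := h.finite
    apply FiniteDimensional.of_finrank_pos
    rw [← mzrb_finrank_transport e x]
    exact Module.finrank_pos

end Transport

/-! ### The identification `EhField k p ≃ TaBar k p` -/

section Bridge

variable (k : Type*) [Field k] (p : ℕ) [NeZero p] (hp : p.Prime)

include hp in
theorem mzrb_ehF_eq : ehF k p = modularFunctionFieldFullC k p := by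
  apply le_antisymm
  · exact ehF_le_of_mem k p (jqModC_mem_full k p) (jqModCd_mem_full k p dvd_rfl)
  · rw [modularFunctionFieldFullC, IntermediateField.adjoin_le_iff]
    rintro x ⟨d, hd0, hd, rfl⟩
    rcases (Nat.dvd_prime hp).mp hd with rfl | rfl
    · rw [qExpand_one_apply]
      exact jqModC_mem_ehF k _
    · exact ehJpLS_mem_ehF k _

include hp in
theorem mzrb_fieldRange_eq : (ehEmb k p).fieldRange = modularFunctionFieldFullC k p := by
  ext x
  rw [AlgHom.mem_fieldRange]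
  constructor
  · rintro ⟨z, rfl⟩
    rw [← mzrb_ehF_eq k p hp]
    exact ehEmb_mem k p z
  · intro hx
    rw [← mzrb_ehF_eq k p hp] at hx
    exact ⟨ehLift k p x hx, ehEmb_ehLift k p x hx⟩

/-- the two incarnations of `k(j̄, j̄_p)` -/
def mzrbEquiv : EhField k p ≃ₐ[k] TaBar k p :=
  (AlgEquiv.ofInjectiveField (ehEmb k p)).trans
    (IntermediateField.equivOfEq (mzrb_fieldRange_eq k p hp))

theorem coe_mzrbEquiv (z : EhField k p) :
    ((mzrbEquiv k p hp z : TaBar k p) : LaurentSeries k) = ehEmb k p z := rfl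

theorem coe_mzrbEquiv_symm (f : TaBar k p) :
    ehEmb k p ((mzrbEquiv k p hp).symm f) = (f : LaurentSeries k) := by
  have h := coe_mzrbEquiv k p hp ((mzrbEquiv k p hp).symm f)
  rw [AlgEquiv.apply_symm_apply] at h
  exact h.symm

/-- `j̄_p ∈ F̄` -/
def mzrbJp : TaBar k p := ⟨qExpand k p (jqModC k), jqModCd_mem_full k p dvd_rfl⟩

@[simp] theorem coe_mzrbJp : ((mzrbJp k p : TaBar k p) : LaurentSeries k) =
    qExpand k p (jqModC k) := rfl

theorem mzrbEquiv_ehX : mzrbEquiv k p hp (ehX k p) = taBarJ k p :=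
  Subtype.ext ((coe_mzrbEquiv k p hp _).trans (ehEmb_ehX k p))

theorem mzrbEquiv_ehY : mzrbEquiv k p hp (ehY k p) = mzrbJp k p :=
  Subtype.ext ((coe_mzrbEquiv k p hp _).trans (ehEmb_ehY k p))

theorem mzrbEquiv_symm_taBarJ : (mzrbEquiv k p hp).symm (taBarJ k p) = ehX k p := by
  rw [AlgEquiv.symm_apply_eq, mzrbEquiv_ehX]

theorem mzrbEquiv_symm_mzrbJp : (mzrbEquiv k p hp).symm (mzrbJp k p) = ehY k p := by
  rw [AlgEquiv.symm_apply_eq, mzrbEquiv_ehY]

theorem mzrbJp_ne_zero : mzrbJp k p ≠ 0 := fun h =>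
  ehJpLS_ne_zero k p (congrArg (fun z : TaBar k p => (z : LaurentSeries k)) h)

theorem mzrb_taBarJ_ne_zero : taBarJ k p ≠ 0 := fun h =>
  jqModC_ne_zero k (congrArg (fun z : TaBar k p => (z : LaurentSeries k)) h)

variable [IsAlgClosed k] (hN : ((p : ℕ) : k) ≠ 0)

include hp hN in
/-- **`[k(j̄, j̄_p) : k(j̄)] = p + 1`** on the `EhField` side -/
theorem mzrb_hdeg : Module.finrank ↥(k⟮ehX k p⟯) (EhField k p) = p + 1 := by
  have h1 := mzrb_finrank_transport (mzrbEquiv k p hp) (ehX k p)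
  rw [mzrbEquiv_ehX, ta_bar_finrank k p hN, eo_dedekindPsi_prime hp] at h1
  exact h1

include hp hN in
theorem mzrb_hgen : IsFunctionFieldGen k (EhField k p) (ehX k p) := by
  have h1 := mzrb_isFunctionFieldGen_transport (mzrbEquiv k p hp).symm (taBarJ k p)
    (ta_bar_isFunctionFieldGen k p)
  rwa [mzrbEquiv_symm_taBarJ] at h1

include hp hN in
theorem mzrb_hsep : Algebra.IsSeparable ↥(k⟮ehX k p⟯) (EhField k p) := by
  have h1 := mzrb_isSeparable_transport (mzrbEquiv k p hp).symm (taBarJ k p)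
    (ta_bar_isSeparable k p hN)
  rwa [mzrbEquiv_symm_taBarJ] at h1

/-- **the cusp `∞`** of the reduced curve: the place of the `q`-expansion -/
def mzrbInf : Place k (TaBar k p) := placeMap (mzrbEquiv k p hp) (ehPlaceInf k p)

/-- **the cusp `0`** of the reduced curve: the Fricke transform of `∞` -/
def mzrbZero : Place k (TaBar k p) :=
  placeMap (mzrbEquiv k p hp) (mzrPlaceZero k p hp (mzrb_hdeg k p hp hN))

omit [IsAlgClosed k] in
/-- `ord_∞ f` is the `q`-order of `f` -/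
theorem mzrbInf_ord (f : TaBar k p) :
    (mzrbInf k p hp).ord f = (f : LaurentSeries k).order := by
  rw [mzrbInf, placeMap_ord', ehPlaceInf_ord, coe_mzrbEquiv_symm]

omit [IsAlgClosed k] in
theorem mzrbInf_ord_J : (mzrbInf k p hp).ord (taBarJ k p) = -1 := by
  rw [mzrbInf, placeMap_ord', mzrbEquiv_symm_taBarJ, ehPlaceInf_ord_ehX]

omit [IsAlgClosed k] in
theorem mzrbInf_ord_Jp : (mzrbInf k p hp).ord (mzrbJp k p) = -(p : ℤ) := by
  rw [mzrbInf, placeMap_ord', mzrbEquiv_symm_mzrbJp, ehPlaceInf_ord_ehY]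

theorem mzrbZero_ord_J : (mzrbZero k p hp hN).ord (taBarJ k p) = -(p : ℤ) := by
  rw [mzrbZero, placeMap_ord', mzrbEquiv_symm_taBarJ, mzrPlaceZero_ord_ehX]

theorem mzrbZero_ord_Jp : (mzrbZero k p hp hN).ord (mzrbJp k p) = -1 := by
  rw [mzrbZero, placeMap_ord', mzrbEquiv_symm_mzrbJp, mzrPlaceZero_ord_ehY]

omit [IsAlgClosed k] in
/-- `1 / j̄` is a uniformiser at `∞` -/
theorem mzrbInf_ord_J_inv : (mzrbInf k p hp).ord (taBarJ k p)⁻¹ = 1 := by
  rw [Place.ord_inv, mzrbInf_ord_J]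
  norm_num

/-- `1 / j̄_p` is a uniformiser at `0` -/
theorem mzrbZero_ord_Jp_inv : (mzrbZero k p hp hN).ord (mzrbJp k p)⁻¹ = 1 := by
  rw [Place.ord_inv, mzrbZero_ord_Jp]
  norm_num

theorem mzrb_symm_quot :
    (mzrbEquiv k p hp).symm (mzrbJp k p * (taBarJ k p)⁻¹ ^ p) =
      ehY k p * (ehX k p)⁻¹ ^ p := by
  rw [map_mul, map_pow, map_inv₀, mzrbEquiv_symm_taBarJ, mzrbEquiv_symm_mzrbJp]

include hN in
/-- a pole of `j̄` at which `j̄_p / j̄^p` is regular and nonzero is the cusp `∞` -/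
theorem mzrb_eq_inf (Q : Place k (TaBar k p)) (hQ : Q.ord (taBarJ k p) < 0)
    (hq : Q.ord (mzrbJp k p * (taBarJ k p)⁻¹ ^ p) ≤ 0) : Q = mzrbInf k p hp := by
  haveI := mzrb_hsep k p hp hN
  set v := placeMap (mzrbEquiv k p hp).symm Q with hv
  have hQv : Q = placeMap (mzrbEquiv k p hp) v := (placeMap_placeMap_symm _ Q).symm
  have h1 : v.ord (ehX k p) < 0 := by
    rw [hv, placeMap_ord', AlgEquiv.symm_symm, mzrbEquiv_ehX]
    exact hQ
  have h2 : v.ord (ehY k p * (ehX k p)⁻¹ ^ p) ≤ 0 := by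
    rw [hv, placeMap_ord', AlgEquiv.symm_symm, ← mzrb_symm_quot k p hp, AlgEquiv.apply_symm_apply]
    exact hq
  rw [hQv, mzr_eq_inf_of_ord k p hp (mzrb_hdeg k p hp hN) (mzrb_hgen k p hp hN) v h1 h2]
  rfl

/-- a pole of `j̄` at which `j̄_p / j̄^p` vanishes is the cusp `0` -/
theorem mzrb_eq_zero (Q : Place k (TaBar k p)) (hQ : Q.ord (taBarJ k p) < 0)
    (hq : 0 < Q.ord (mzrbJp k p * (taBarJ k p)⁻¹ ^ p)) : Q = mzrbZero k p hp hN := by
  haveI := mzrb_hsep k p hp hN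
  set v := placeMap (mzrbEquiv k p hp).symm Q with hv
  have hQv : Q = placeMap (mzrbEquiv k p hp) v := (placeMap_placeMap_symm _ Q).symm
  have h1 : v.ord (ehX k p) < 0 := by
    rw [hv, placeMap_ord', AlgEquiv.symm_symm, mzrbEquiv_ehX]
    exact hQ
  have h2 : 0 < v.ord (ehY k p * (ehX k p)⁻¹ ^ p) := by
    rw [hv, placeMap_ord', AlgEquiv.symm_symm, ← mzrb_symm_quot k p hp, AlgEquiv.apply_symm_apply]
    exact hq
  rw [hQv, mzr_eq_zero_of_ord k p hp (mzrb_hdeg k p hp hN) (mzrb_hgen k p hp hN) v h1 h2]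
  rfl

end Bridge

end Fermat.Agent.Mazur
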