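/-
MAZUR (Track M), package (R) (helper6), part 3: **Lang's lemma for semilinear maps**.

`k` algebraically closed of characteristic `ℓ`, `V ≠ 0` finite-dimensional, `φ : V → V` additive,
injective and Frobenius-semilinear (`φ (c • v) = c ^ ℓ • φ v`).  Then `φ` has a nonzero fixed vector
(`mzr_exists_fixed_vector`).

Proof: for `v₀ ≠ 0` let `u i = φ^i v₀`, `i` minimal with `u (i+1) = ∑_{j ≤ i} a j • u j`.  A vector
`∑_{j ≤ i} c j • u j` is fixed iff `c 0 = a 0 z^ℓ`, `c (j+1) = (c j)^ℓ + a (j+1) z^ℓ`, `c i = z`; this is one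
equation `G(z) = 0` with `G' = -1`, so `G` is separable of degree `≥ ℓ` and has a nonzero root.
-/
import Mathlib

set_option autoImplicit false
set_option linter.style.haveILetI false
set_option linter.unusedSectionVars false
set_option linter.unusedVariables false

namespace Fermat.Agent.Mazur

open Polynomial

section Poly

variable {k : Type*} [Field k] (ℓ : ℕ) (a : ℕ → k)

/-- the coefficients `c_i` of a fixed vector as polynomials in `z = c_{last}` -/
noncomputable def mzrLangPoly : ℕ → k[X]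
  | 0 => C (a 0) * X ^ ℓ
  | (i + 1) => (mzrLangPoly i) ^ ℓ + C (a (i + 1)) * X ^ ℓ

theorem mzrLangPoly_zero : mzrLangPoly ℓ a 0 = C (a 0) * X ^ ℓ := rfl

theorem mzrLangPoly_succ (i : ℕ) :
    mzrLangPoly ℓ a (i + 1) = (mzrLangPoly ℓ a i) ^ ℓ + C (a (i + 1)) * X ^ ℓ := rfl

theorem mzrLangPoly_dvd (hℓ : 0 < ℓ) (i : ℕ) : X ^ ℓ ∣ mzrLangPoly ℓ a i := by
  induction i with
  | zero => exact Dvd.intro_left _ rfl
  | succ i ih =>
    rw [mzrLangPoly_succ]
    refine dvd_add ?_ (Dvd.intro_left _ rfl)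
    exact ih.trans (dvd_pow_self _ hℓ.ne')

theorem mzrLangPoly_derivative [CharP k ℓ] (hℓ : 0 < ℓ) (i : ℕ) :
    derivative (mzrLangPoly ℓ a i) = 0 := by
  have hX : derivative ((X : k[X]) ^ ℓ) = 0 := by
    rw [derivative_X_pow, CharP.cast_eq_zero k ℓ, map_zero, zero_mul]
  induction i with
  | zero => rw [mzrLangPoly_zero, derivative_C_mul, hX, mul_zero]
  | succ i ih =>
    rw [mzrLangPoly_succ, derivative_add, derivative_C_mul, hX, mul_zero, add_zero,
      derivative_pow, ih, mul_zero]

theorem mzrLangPoly_coeff (hℓ : 2 ≤ ℓ) (i : ℕ) : (mzrLangPoly ℓ a i).coeff ℓ = a i := by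
  cases i with
  | zero => rw [mzrLangPoly_zero, coeff_C_mul, coeff_X_pow, if_pos rfl, mul_one]
  | succ i =>
    rw [mzrLangPoly_succ, coeff_add, coeff_C_mul, coeff_X_pow, if_pos rfl, mul_one]
    have h1 : (X : k[X]) ^ (ℓ * ℓ) ∣ (mzrLangPoly ℓ a i) ^ ℓ := by
      rw [pow_mul]
      exact pow_dvd_pow_of_dvd (mzrLangPoly_dvd ℓ a (by omega) i) ℓ
    have h2 : ℓ < ℓ * ℓ := by nlinarith
    rw [(X_pow_dvd_iff.mp h1) ℓ h2, zero_add]

theorem mzrLangPoly_eq_zero (hℓ : 2 ≤ ℓ) (i : ℕ) (h : mzrLangPoly ℓ a i = 0) :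
    ∀ m ≤ i, a m = 0 := by
  induction i with
  | zero =>
    intro m hm
    have h1 := mzrLangPoly_coeff ℓ a hℓ 0
    rw [h, coeff_zero] at h1
    rw [Nat.le_zero.mp hm]
    exact h1.symm
  | succ i ih =>
    intro m hm
    have h1 := mzrLangPoly_coeff ℓ a hℓ (i + 1)
    rw [h, coeff_zero] at h1
    rcases Nat.lt_or_ge m (i + 1) with hlt | hge
    · refine ih ?_ m (by omega)
      rw [mzrLangPoly_succ, ← h1, map_zero, zero_mul, add_zero] at h
      exact pow_eq_zero_iff (by omega) |>.mp h
    · have : m = i + 1 := by omega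
      rw [this]
      exact h1.symm

/-- **the one-variable equation has a nonzero solution** -/
theorem mzr_exists_root [IsAlgClosed k] [CharP k ℓ] (hℓ : 2 ≤ ℓ) (i : ℕ)
    (ha : ∃ m ≤ i, a m ≠ 0) : ∃ z : k, z ≠ 0 ∧ (mzrLangPoly ℓ a i).eval z = z := by
  classical
  set G : k[X] := mzrLangPoly ℓ a i - X with hG
  have hder : derivative G = -1 := by
    rw [hG, derivative_sub, mzrLangPoly_derivative ℓ a (by omega) i, derivative_X, zero_sub]
  have hG0 : G ≠ 0 := by
    intro h0
    rw [h0, derivative_zero] at hder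
    exact one_ne_zero (neg_eq_zero.mp hder.symm)
  have hsep : G.Separable := by
    rw [separable_def, hder]
    exact isCoprime_one_right.neg_right
  by_contra hcon
  push Not at hcon
  -- all roots of `G` are `0`
  have hroots : ∀ r ∈ G.roots, r = 0 := by
    intro r hr
    by_contra hr0
    apply hcon r hr0
    have := (mem_roots hG0).mp hr
    rw [IsRoot.def, hG, eval_sub, eval_X, sub_eq_zero] at this
    exact this
  have hcard : Multiset.card G.roots ≤ 1 := by
    have hnd := nodup_roots hsep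
    have hsub : G.roots ⊆ {0} := fun r hr => Multiset.mem_singleton.mpr (hroots r hr)
    have := Multiset.card_le_card (Multiset.le_iff_subset hnd |>.mpr hsub)
    simpa using this
  have hdeg : G.natDegree ≤ 1 := by
    rw [← splits_iff_card_roots.mp (IsAlgClosed.splits G)]
    exact hcard
  -- hence the Lang polynomial has degree `≤ 1`, but it is divisible by `X ^ ℓ`
  have hdeg2 : (mzrLangPoly ℓ a i).natDegree ≤ 1 := by
    have : mzrLangPoly ℓ a i = G + X := by rw [hG]; ring
    rw [this]
    exact (natDegree_add_le _ _).trans (max_le hdeg natDegree_X_le)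
  have hzero : mzrLangPoly ℓ a i = 0 := by
    by_contra hne
    obtain ⟨q, hq⟩ := mzrLangPoly_dvd ℓ a (by omega) i
    have hq0 : q ≠ 0 := by
      rintro rfl
      exact hne (by rw [hq, mul_zero])
    rw [hq, natDegree_mul (pow_ne_zero _ X_ne_zero) hq0, natDegree_X_pow] at hdeg2
    omega
  obtain ⟨m, hm, hm0⟩ := ha
  exact hm0 (mzrLangPoly_eq_zero ℓ a hℓ i hzero m hm)

end Poly

section Fixed

variable {k V : Type*} [Field k] [AddCommGroup V] [Module k V] (ℓ : ℕ)
  (φ : V →+ V) (hφ : ∀ (c : k) (v : V), φ (c • v) = c ^ ℓ • φ v)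

include hφ in
/-- the fixed vector attached to a solution of the one-variable equation -/
theorem mzr_fixed_of_root (u : ℕ → V) (hu : ∀ j, u (j + 1) = φ (u j)) (a : ℕ → k) (i : ℕ)
    (hrel : u (i + 1) = ∑ j ∈ Finset.range (i + 1), a j • u j) (z : k)
    (hz : (mzrLangPoly ℓ a i).eval z = z) :
    φ (∑ j ∈ Finset.range (i + 1), (mzrLangPoly ℓ a j).eval z • u j) =
      ∑ j ∈ Finset.range (i + 1), (mzrLangPoly ℓ a j).eval z • u j := by
  set c : ℕ → k := fun j => (mzrLangPoly ℓ a j).eval z with hc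
  have hc0 : c 0 = a 0 * z ^ ℓ := by
    simp only [hc, mzrLangPoly_zero, eval_mul, eval_C, eval_pow, eval_X]
  have hcs : ∀ j, c (j + 1) = c j ^ ℓ + a (j + 1) * z ^ ℓ := by
    intro j
    simp only [hc, mzrLangPoly_succ, eval_add, eval_mul, eval_C, eval_pow, eval_X]
  have hci : c i = z := hz
  have h1 : φ (∑ j ∈ Finset.range (i + 1), c j • u j) =
      ∑ j ∈ Finset.range (i + 1), c j ^ ℓ • u (j + 1) := by
    rw [map_sum]
    exact Finset.sum_congr rfl fun j _ => by rw [hφ, hu]
  rw [h1, Finset.sum_range_succ, hci, hrel, Finset.sum_range_succ' (fun j => c j • u j),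
    Finset.sum_range_succ' (fun j => a j • u j), smul_add, Finset.smul_sum, hc0,
    ← add_assoc, ← Finset.sum_add_distrib]
  congr 1
  · refine Finset.sum_congr rfl fun j _ => ?_
    rw [hcs, add_smul, smul_smul, mul_comm]
  · rw [smul_smul, mul_comm]

/-- **Lang's lemma**: an injective Frobenius-semilinear endomorphism of a nonzero finite-dimensional
vector space over an algebraically closed field has a nonzero fixed vector -/
theorem mzr_exists_fixed_vector [IsAlgClosed k] [CharP k ℓ] (hℓ : 2 ≤ ℓ) [FiniteDimensional k V]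
    [Nontrivial V] (φ : V →+ V) (hφ : ∀ (c : k) (v : V), φ (c • v) = c ^ ℓ • φ v)
    (hinj : Function.Injective φ) : ∃ v : V, v ≠ 0 ∧ φ v = v := by
  classical
  obtain ⟨v₀, hv₀⟩ := exists_ne (0 : V)
  set u : ℕ → V := fun j => (φ^[j]) v₀ with hudef
  have hu : ∀ j, u (j + 1) = φ (u j) := fun j => Function.iterate_succ_apply' φ j v₀
  have hune : ∀ j, u j ≠ 0 := by
    intro j
    induction j with
    | zero => exact hv₀
    | succ j ih =>
      rw [hu]
      intro h0
      exact ih (hinj (by rw [h0, map_zero]))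
  -- the first linear dependency
  have hex : ∃ n, ¬ LinearIndependent k (fun j : Fin n => u j) := by
    refine ⟨Module.finrank k V + 1, fun hli => ?_⟩
    have := hli.fintype_card_le_finrank
    rw [Fintype.card_fin] at this
    omega
  set n₀ := Nat.find hex with hn₀
  have hn₀spec : ¬ LinearIndependent k (fun j : Fin n₀ => u j) := Nat.find_spec hex
  have hn₀min : ∀ m < n₀, LinearIndependent k (fun j : Fin m => u j) := fun m hm => by
    by_contra h
    exact Nat.find_min hex hm h
  have hn₀0 : n₀ ≠ 0 := by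
    intro h0
    apply hn₀spec
    rw [h0]
    exact linearIndependent_empty_type
  have hn₀1 : n₀ ≠ 1 := by
    intro h1
    apply hn₀spec
    rw [h1]
    rw [linearIndependent_unique_iff]
    exact hune 0
  obtain ⟨i, hi⟩ : ∃ i, n₀ = i + 2 := ⟨n₀ - 2, by omega⟩
  have hli : LinearIndependent k (fun j : Fin (i + 1) => u j) := hn₀min (i + 1) (by omega)
  have hnli : ¬ LinearIndependent k (fun j : Fin (i + 2) => u j) := by
    rw [← hi]
    exact hn₀spec
  have hmem : u (i + 1) ∈ Submodule.span k (Set.range fun j : Fin (i + 1) => u j) := by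
    by_contra hnot
    apply hnli
    rw [linearIndependent_finSucc']
    exact ⟨hli, hnot⟩
  obtain ⟨a₀, ha₀⟩ := (Submodule.mem_span_range_iff_exists_fun k).mp hmem
  set a : ℕ → k := fun m => if h : m < i + 1 then a₀ ⟨m, h⟩ else 0 with hadef
  have hrel : u (i + 1) = ∑ j ∈ Finset.range (i + 1), a j • u j := by
    rw [← ha₀, Finset.sum_range]
    refine Finset.sum_congr rfl fun j _ => ?_
    simp only [hadef, dif_pos j.2]
  have hane : ∃ m ≤ i, a m ≠ 0 := by
    by_contra hall
    push Not at hall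
    apply hune (i + 1)
    rw [hrel]
    refine Finset.sum_eq_zero fun j hj => ?_
    rw [hall j (by have := Finset.mem_range.mp hj; omega), zero_smul]
  obtain ⟨z, hz0, hz⟩ := mzr_exists_root ℓ a hℓ i hane
  refine ⟨∑ j ∈ Finset.range (i + 1), (mzrLangPoly ℓ a j).eval z • u j, ?_,
    mzr_fixed_of_root ℓ φ hφ u hu a i hrel z hz⟩
  intro h0
  rw [Finset.sum_range] at h0
  have := Fintype.linearIndependent_iff.mp hli (fun j : Fin (i + 1) =>
    (mzrLangPoly ℓ a j).eval z) h0 (Fin.last i)
  rw [Fin.val_last, hz] at this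
  exact hz0 this

end Fixed

end Fermat.Agent.Mazur
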