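/-
MAZUR (Track M), package (R) (helper6), part 4: **finiteness of the Frobenius-fixed part of `Pic⁰`**
(abstract form of (R3)).

`F / k` a function field of one variable over an algebraically closed field of characteristic `ℓ`,
`x` a separating generator, `Φ` a semilinear automorphism of `F / k` inducing `a ↦ a ^ ℓ` on `k` and
fixing `x` (a "Frobenius structure": `F = F₀ ⊗ k`, `F₀ / 𝔽_ℓ`).  Then

* `mzr_finite_fixed_places`   : the places fixed by `Ψ` (`Ψ a = a ^ q` on `k`, `q ≥ 2`, `Ψ x = x`) are
  finite in number (they are poles of `x` or zeros of `x - a`, `a ^ q = a`);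
* `mzr_finite_fixed_divisors` : the `Φ`-fixed effective divisors of given degree are finite in number;
* `mzr_finite_fixed_pic0`     : `{y : Pic⁰ | Φ • y = y}` is finite (Lang's lemma on `L(D)` produces a
  `Φ`-fixed effective divisor in every `Φ`-fixed class of degree `≥ g`).
-/
import Fermat.Agent.Lib.CurveP.RiemannRoch
import Fermat.Prelude.Def_AlgebraicCurve_BaseChangeGalois
import Fermat.Agent.Lib.Mazur.Red.Lang

set_option autoImplicit false
set_option linter.style.haveILetI false
set_option linter.unusedSectionVars false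
set_option linter.unusedVariables false

namespace Fermat.Agent.Mazur

open AlgebraicCurve IntermediateField Fermat.Agent.Curve Fermat.Agent.Curve.PlaceAux
  Fermat.Agent.CurveP

section Abstract

variable {k F : Type*} [Field k] [Field F] [Algebra k F]

/-- the base automorphism of a power -/
theorem mzr_baseAut_pow (ℓ : ℕ) (Φ : SemilinearAut k F)
    (hΦ : ∀ a : k, SemilinearAut.baseAut Φ a = a ^ ℓ) (r : ℕ) (a : k) :
    SemilinearAut.baseAut (Φ ^ r) a = a ^ (ℓ ^ r) := by
  induction r generalizing a with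
  | zero => simp
  | succ r ih =>
    rw [pow_succ, SemilinearAut.baseAut_mul, RingAut.mul_apply, hΦ, ih, ← pow_mul, pow_succ,
      mul_comm]

theorem mzr_pow_smul_fixed {α : Type*} [MulAction (SemilinearAut k F) α] (Φ : SemilinearAut k F)
    {x : α} (hx : Φ • x = x) (r : ℕ) : Φ ^ r • x = x := by
  induction r with
  | zero => rw [pow_zero, one_smul]
  | succ r ih => rw [pow_succ, mul_smul, hx, ih]

theorem mzr_inv_smul_fixed {α : Type*} [MulAction (SemilinearAut k F) α] (Φ : SemilinearAut k F)
    {x : α} (hx : Φ • x = x) : Φ⁻¹ • x = x := by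
  rw [inv_smul_eq_iff, hx]

section FF

variable [IsAlgClosed k] {x : F} (hx : IsFunctionFieldGen k F x)
  [Algebra.IsSeparable (IntermediateField.adjoin k {x}) F]

include hx

/-- **the places fixed by a Frobenius structure are finite in number** -/
theorem mzr_finite_fixed_places (q : ℕ) (hq : 2 ≤ q) (Ψ : SemilinearAut k F)
    (hΨ : ∀ a : k, SemilinearAut.baseAut Ψ a = a ^ q) (hΨx : Ψ • x = x) :
    {w : Place k F | Ψ • w = w}.Finite := by
  classical
  set P : Polynomial k := Polynomial.X ^ q - Polynomial.X with hP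
  have hP0 : P ≠ 0 := by
    intro h0
    have h1 := FiniteField.X_pow_card_sub_X_natDegree_eq k (p := q) (by omega)
    rw [← hP, h0, Polynomial.natDegree_zero] at h1
    omega
  set R : Finset k := P.roots.toFinset with hR
  have hfin : ({w : Place k F | w.ord x < 0} ∪
      ⋃ a ∈ (R : Set k), {w : Place k F | 0 < w.ord (x - algebraMap k F a)}).Finite :=
    (finite_poles_of hx x).union
      (Set.Finite.biUnion R.finite_toSet fun a _ => finite_zeros_of hx _)
  refine hfin.subset fun w hw => ?_
  simp only [Set.mem_ofPred_eq] at hw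
  by_cases hpole : w.ord x < 0
  · exact Or.inl hpole
  right
  have hxw : x ∈ w.toValuationSubring := mem_of_ord_nonneg w (not_lt.mp hpole)
  obtain ⟨a, ha⟩ := exists_const_ordGE_one hx w hxw
  have hne : ∀ c : k, x - algebraMap k F c ≠ 0 := by
    intro c h0
    apply hx.transcendental
    rw [sub_eq_zero] at h0
    rw [h0]
    exact isAlgebraic_algebraMap c
  have ha1 : 1 ≤ w.ord (x - algebraMap k F a) := by
    rcases (ordGE_iff w).mp ha with h0 | h0
    · exact absurd h0 (hne a)
    · exact h0
  have hΨa : Ψ • (x - algebraMap k F a) = x - algebraMap k F (a ^ q) := by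
    rw [smul_sub, hΨx, SemilinearAut.smul_algebraMap, hΨ]
  have hord : w.ord (x - algebraMap k F (a ^ q)) = w.ord (x - algebraMap k F a) := by
    have := SemilinearAut.ord_smul Ψ w (x - algebraMap k F a)
    rwa [hw, hΨa] at this
  have ha' : OrdGE w (x - algebraMap k F (a ^ q)) 1 := by
    rw [ordGE_iff]
    right
    rw [hord]
    exact ha1
  have haq : a = a ^ q := const_unique_of_ordGE_one w ha ha'
  have haR : a ∈ R := by
    rw [hR, Multiset.mem_toFinset, Polynomial.mem_roots hP0, Polynomial.IsRoot.def, hP,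
      Polynomial.eval_sub, Polynomial.eval_pow, Polynomial.eval_X, ← haq, sub_self]
  simp only [Set.mem_iUnion, Set.mem_ofPred_eq]
  exact ⟨a, haR, by omega⟩

/-- the degree of a divisor is the sum of its coefficients (`k` algebraically closed) -/
theorem mzr_degree_eq_sum (E : Divisor k F) :
    Divisor.degree E = ∑ v ∈ E.support, E v := by
  rw [Divisor.degree, Finsupp.liftAddHom_apply, Finsupp.sum]
  refine Finset.sum_congr rfl fun v _ => ?_
  rw [AddMonoidHom.mulRight_apply, deg_eq_one hx v, Nat.cast_one, mul_one]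

/-- **the fixed effective divisors of given degree are finite in number** -/
theorem mzr_finite_fixed_divisors (ℓ : ℕ) (hℓ : 2 ≤ ℓ) (Φ : SemilinearAut k F)
    (hΦ : ∀ a : k, SemilinearAut.baseAut Φ a = a ^ ℓ) (hΦx : Φ • x = x) (d : ℕ) :
    {E : Divisor k F | 0 ≤ E ∧ Divisor.degree E = d ∧ Φ • E = E}.Finite := by
  classical
  have hq : 2 ≤ ℓ ^ d.factorial := by
    calc 2 ≤ ℓ := hℓ
      _ = ℓ ^ 1 := (pow_one ℓ).symm
      _ ≤ ℓ ^ d.factorial := Nat.pow_le_pow_right (by omega) (Nat.factorial_pos d)
  have hS := mzr_finite_fixed_places hx (ℓ ^ d.factorial) hq (Φ ^ d.factorial)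
    (mzr_baseAut_pow ℓ Φ hΦ d.factorial) (mzr_pow_smul_fixed Φ hΦx d.factorial)
  set S : Finset (Place k F) := hS.toFinset with hSdef
  refine (Finset.finite_toSet (Finset.finsupp S fun _ => Finset.Icc (0 : ℤ) d)).subset ?_
  rintro E ⟨hE0, hEdeg, hEfix⟩
  rw [Finset.mem_coe, Finset.mem_finsupp_iff]
  have hsum := mzr_degree_eq_sum hx E
  rw [hEdeg] at hsum
  have hpos : ∀ v ∈ E.support, 1 ≤ E v := by
    intro v hv
    have h1 := hE0 v
    rw [Finsupp.zero_apply] at h1
    have h2 := Finsupp.mem_support_iff.mp hv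
    omega
  have hcard : E.support.card ≤ d := by
    have h1 : ((E.support.card : ℕ) : ℤ) ≤ ∑ v ∈ E.support, E v := by
      calc ((E.support.card : ℕ) : ℤ) = ∑ _v ∈ E.support, (1 : ℤ) := by simp
        _ ≤ ∑ v ∈ E.support, E v := Finset.sum_le_sum hpos
    rw [← hsum] at h1
    exact_mod_cast h1
  constructor
  · -- the support consists of `Φ ^ d!`-fixed places
    intro w hw
    rw [hSdef, Set.Finite.mem_toFinset]
    show Φ ^ d.factorial • w = w
    have hEpow : ∀ i : ℕ, Φ ^ i • E = E := fun i => mzr_pow_smul_fixed Φ hEfix i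
    have hmaps : ∀ i ∈ Finset.range (d + 1), Φ ^ i • w ∈ E.support := by
      intro i _
      rw [Finsupp.mem_support_iff]
      have := SemilinearAut.divisor_smul_apply_smul (Φ ^ i) E w
      rw [hEpow i] at this
      rw [this]
      exact Finsupp.mem_support_iff.mp hw
    have hlt : E.support.card < (Finset.range (d + 1)).card := by
      rw [Finset.card_range]
      omega
    obtain ⟨i, hi, j, hj, hij, heq⟩ :=
      Finset.exists_ne_map_eq_of_card_lt_of_maps_to hlt hmaps
    rw [Finset.mem_range] at hi hj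
    -- a positive power `≤ d` fixes `w`
    have key : ∀ i j : ℕ, i < j → j < d + 1 → Φ ^ i • w = Φ ^ j • w →
        Φ ^ d.factorial • w = w := by
      intro i j hlt' hjd heq'
      have h1 : Φ ^ (j - i) • w = w := by
        have h2 : Φ ^ j = Φ ^ i * Φ ^ (j - i) := by
          rw [← pow_add]
          congr 1
          omega
        rw [h2, mul_smul] at heq'
        exact (MulAction.injective (Φ ^ i) heq').symm
      have hdvd : (j - i) ∣ d.factorial := Nat.dvd_factorial (by omega) (by omega)
      obtain ⟨c, hc⟩ := hdvd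
      rw [hc, pow_mul]
      exact mzr_pow_smul_fixed (Φ ^ (j - i)) h1 c
    rcases Nat.lt_or_gt_of_ne hij with h | h
    · exact key i j h hj heq
    · exact key j i h hi heq.symm
  · intro w _
    rw [Finset.mem_Icc]
    refine ⟨by simpa using hE0 w, ?_⟩
    by_cases hw : w ∈ E.support
    · rw [hsum]
      exact Finset.single_le_sum (fun v _ => by simpa using hE0 v) hw
    · rw [Finsupp.notMem_support_iff.mp hw]
      positivity

/-- the pole divisor of a fixed function is fixed -/
theorem mzr_smul_poleDiv (Φ : SemilinearAut k F) (hΦx : Φ • x = x) :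
    Φ • RRAux.poleDiv hx x = RRAux.poleDiv hx x := by
  ext w
  rw [SemilinearAut.divisor_smul_apply, RRAux.poleDiv_apply, RRAux.poleDiv_apply]
  have h1 := SemilinearAut.ord_smul Φ⁻¹ w x
  rw [mzr_inv_smul_fixed Φ hΦx] at h1
  rw [h1]

/-- **(R3), abstract form: the Frobenius-fixed part of `Pic⁰` is finite** -/
theorem mzr_finite_fixed_pic0 (ℓ : ℕ) [CharP k ℓ] (hℓ : 2 ≤ ℓ) (Φ : SemilinearAut k F)
    (hΦ : ∀ a : k, SemilinearAut.baseAut Φ a = a ^ ℓ) (hΦx : Φ • x = x) :
    {y : Pic0 k F | Φ • y = y}.Finite := by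
  classical
  haveI := hx.finite
  set n : ℕ := Module.finrank (IntermediateField.adjoin k {x}) F with hn
  have hn1 : 1 ≤ n := Module.finrank_pos
  set D₁ : Divisor k F := RRAux.poleDiv hx x with hD₁
  have hD₁deg : Divisor.degree D₁ = n := RRAux.degree_poleDiv_gen hx
  have hD₁fix : Φ • D₁ = D₁ := mzr_smul_poleDiv hx Φ hΦx
  set g : ℕ := genusR k F with hg
  set d : ℕ := g * n with hd
  -- the class attached to a divisor of degree `d`
  set G : Divisor k F → Pic0 k F := fun E =>
    if h : Divisor.degree (E - (g : ℤ) • D₁) = 0 then Pic0.mk ⟨E - (g : ℤ) • D₁, h⟩ else 0 with hG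
  refine ((mzr_finite_fixed_divisors hx ℓ hℓ Φ hΦ hΦx d).image G).subset ?_
  intro y hy
  simp only [Set.mem_ofPred_eq] at hy
  obtain ⟨Dy, rfl⟩ := Pic0.mk_surjective y
  have hDy0 : Divisor.degree (Dy : Divisor k F) = 0 := Dy.2
  set D : Divisor k F := (Dy : Divisor k F) + (g : ℤ) • D₁ with hD
  clear_value D
  have hDdeg : Divisor.degree D = d := by
    rw [hD, map_add, hDy0, zero_add, map_zsmul, hD₁deg, hd]
    push_cast
    simp
  -- `Φ D - D` is principal
  have hprin : Φ • (Dy : Divisor k F) - (Dy : Divisor k F) ∈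
      Divisor.principal (K := k) (F := F) := by
    rw [SemilinearAut.pic0_smul_mk] at hy
    have h1 := (QuotientAddGroup.eq_iff_sub_mem).mp hy
    rw [AddSubgroup.mem_addSubgroupOf] at h1
    simpa using h1
  obtain ⟨h, hh0, hh⟩ := hprin
  have hΦD : ∀ w : Place k F, (Φ • D) w - D w = w.ord h := by
    intro w
    rw [← hh w, hD, smul_add, smul_comm, hD₁fix]
    simp only [Finsupp.add_apply, Finsupp.sub_apply]
    ring
  -- the semilinear endomorphism `f ↦ h Φ(f)` of `L(D)`
  have hmem : ∀ f : F, f ∈ riemannRochSpace D → h * Φ • f ∈ riemannRochSpace D := by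
    intro f hf
    rw [mem_riemannRochSpace_iff] at hf ⊢
    intro w
    rcases eq_or_ne f 0 with rfl | hf0
    · left
      rw [smul_zero, mul_zero]
    right
    have hΦf0 : Φ • f ≠ 0 := by
      intro h0
      apply hf0
      have := congrArg (fun t => Φ⁻¹ • t) h0
      simpa using this
    rw [w.ord_mul hh0 hΦf0]
    have h1 := SemilinearAut.ord_smul Φ (Φ⁻¹ • w) f
    rw [smul_inv_smul] at h1
    have h2 := (hf (Φ⁻¹ • w)).resolve_left hf0
    have h3 := SemilinearAut.divisor_smul_apply Φ D w
    have h4 := hΦD w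
    omega
  set φ : ↥(riemannRochSpace D) →+ ↥(riemannRochSpace D) :=
    { toFun := fun f => ⟨h * Φ • (f : F), hmem f f.2⟩
      map_zero' := by
        apply Subtype.ext
        show h * Φ • ((0 : ↥(riemannRochSpace D)) : F) = 0
        rw [ZeroMemClass.coe_zero, smul_zero, mul_zero]
      map_add' := fun f f' => by
        apply Subtype.ext
        show h * Φ • ((f + f' : ↥(riemannRochSpace D)) : F) = h * Φ • (f : F) + h * Φ • (f' : F)
        rw [Submodule.coe_add, smul_add, mul_add] } with hφdef
  have hφapp : ∀ f : ↥(riemannRochSpace D), ((φ f : ↥(riemannRochSpace D)) : F) = h * Φ • (f : F) :=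
    fun f => rfl
  have hφsl : ∀ (c : k) (f : ↥(riemannRochSpace D)), φ (c • f) = c ^ ℓ • φ f := by
    intro c f
    apply Subtype.ext
    rw [hφapp, Submodule.coe_smul, Submodule.coe_smul, hφapp, Algebra.smul_def, Algebra.smul_def,
      smul_mul', SemilinearAut.smul_algebraMap, hΦ]
    ring
  have hφinj : Function.Injective φ := by
    intro f f' hff
    have h1 : h * Φ • (f : F) = h * Φ • (f' : F) := by
      rw [← hφapp, ← hφapp, hff]
    have h2 := mul_left_cancel₀ hh0 h1
    exact Subtype.ext (MulAction.injective Φ h2)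
  haveI : FiniteDimensional k ↥(riemannRochSpace D) := finiteDimensional_riemannRochSpace hx D
  haveI : Nontrivial ↥(riemannRochSpace D) := by
    have h1 := le_ell hx D
    rw [hDdeg] at h1
    have h2 : 0 < Module.finrank k ↥(riemannRochSpace D) := by
      have h3 : (g : ℤ) ≤ d := by
        rw [hd]
        push_cast
        nlinarith
      have h4 : (1 : ℤ) ≤ (ell D : ℤ) := by omega
      have h5 : 1 ≤ ell D := by exact_mod_cast h4
      exact h5
    exact Module.nontrivial_of_finrank_pos h2
  obtain ⟨f, hf0, hfix⟩ := mzr_exists_fixed_vector ℓ hℓ φ hφsl hφinj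
  have hfF0 : (f : F) ≠ 0 := fun h0 => hf0 (Subtype.ext h0)
  have hfixF : h * Φ • (f : F) = (f : F) := by
    rw [← hφapp, hfix]
  have hΦf0 : Φ • (f : F) ≠ 0 := by
    intro h0
    rw [h0, mul_zero] at hfixF
    exact hfF0 hfixF.symm
  -- the fixed effective divisor
  set E : Divisor k F := D + divOf hx (f : F) with hE
  clear_value E
  have hE0 : 0 ≤ E := by
    rw [hE]
    exact RRAux.add_divOf_nonneg hx f.2 hfF0
  have hEdeg : Divisor.degree E = d := by
    rw [hE, RRAux.degree_add_divOf, hDdeg]
  have hEfix : Φ • E = E := by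
    ext w
    have e1 : (Φ • E) w = D (Φ⁻¹ • w) + (Φ⁻¹ • w).ord (f : F) := by
      rw [SemilinearAut.divisor_smul_apply, hE, Finsupp.add_apply, divOf_apply hx hfF0]
    have e2 : E w = D w + w.ord (f : F) := by
      rw [hE, Finsupp.add_apply, divOf_apply hx hfF0]
    rw [e1, e2]
    have h1 := SemilinearAut.ord_smul Φ (Φ⁻¹ • w) (f : F)
    rw [smul_inv_smul] at h1
    have h3 := SemilinearAut.divisor_smul_apply Φ D w
    have h4 := hΦD w
    have h5 : w.ord (f : F) = w.ord h + w.ord (Φ • (f : F)) := by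
      rw [← w.ord_mul hh0 hΦf0, hfixF]
    omega
  refine ⟨E, ⟨hE0, hEdeg, hEfix⟩, ?_⟩
  have hdegE : Divisor.degree (E - (g : ℤ) • D₁) = 0 := by
    rw [map_sub, hEdeg, map_zsmul, hD₁deg, hd]
    push_cast
    simp
  show G E = Pic0.mk Dy
  rw [hG]
  simp only
  rw [dif_pos hdegE]
  apply (QuotientAddGroup.eq_iff_sub_mem).mpr
  rw [AddSubgroup.mem_addSubgroupOf]
  have hcoe : (((⟨E - (g : ℤ) • D₁, hdegE⟩ : Divisor.degZero (K := k) (F := F)) - Dy :
      Divisor.degZero (K := k) (F := F)) : Divisor k F) = divOf hx (f : F) := by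
    rw [AddSubgroup.coe_sub]
    show E - (g : ℤ) • D₁ - (Dy : Divisor k F) = divOf hx (f : F)
    have h0 : D - (g : ℤ) • D₁ - (Dy : Divisor k F) = 0 := by
      rw [hD]
      abel
    rw [hE, show D + divOf hx (f : F) - (g : ℤ) • D₁ - (Dy : Divisor k F) =
      (D - (g : ℤ) • D₁ - (Dy : Divisor k F)) + divOf hx (f : F) by abel, h0, zero_add]
  rw [hcoe]
  exact ⟨(f : F), hfF0, fun w => divOf_apply hx hfF0 w⟩

end FF

end Abstract

end Fermat.Agent.Mazur
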