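/-
MAZUR (Track M), package (R) (helper6), part 5: **(R3)** for the reduced modular Jacobian.

`κ = 𝔽̄_ℓ`, `F̄ = κ(X₀(N e))`, `Φ = mzrPhi 𝔓 N` the coefficientwise Frobenius (it fixes `j̄`):

* `mzr_finite_fixed`         : `{y : MzrJb 𝔓 N | Φ • y = y}` is finite;
* `mzrFixed 𝔓 N`             : the same as an additive subgroup;
* `mzrRho_rational_finite`   : the image of `J₀(N)(ℚ)` under the reduction map is finite;
* `mzr_exists_exponent`, `mzrRho_rational_exponent` : exponent forms (`∃ n > 0, n • ρ y = 0` for all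
  rational `y`);
* `mzrRho_ncard_le`          : a uniform bound for the rational prime-to-`ℓ` torsion (via (R2)).
-/
import Fermat.Agent.Lib.Mazur.Red.Defs
import Fermat.Agent.Lib.Mazur.Red.Fixed
import Fermat.Agent.Lib.T3.ES.Mod

set_option autoImplicit false
set_option linter.style.haveILetI false
set_option linter.unusedSectionVars false
set_option linter.unusedVariables false
set_option synthInstance.maxHeartbeats 400000

namespace Fermat.Agent.Mazur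

open AlgebraicCurve IntermediateField Fermat.Agent.Curve Fermat.Agent.T1 Fermat.Agent.T3
  ModularCurve Fermat.Agent.TW Fermat.Agent.S05Lib HahnSeries

local notation "Qb" => AlgebraicClosure ℚ
local notation "GQ" => (AlgebraicClosure ℚ ≃ₐ[ℚ] AlgebraicClosure ℚ)

variable (𝔓 : FFPlace) (N : ℕ) [NeZero N]

/-- **(R3)** the Frobenius-fixed part of the reduced Jacobian is finite -/
theorem mzr_finite_fixed (hN : ¬ 𝔓.p ∣ N) : {y : MzrJb 𝔓 N | mzrPhi 𝔓 N • y = y}.Finite := by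
  haveI : IsAlgClosed (IsLocalRing.ResidueField ↥𝔓.P) := tb_isAlgClosed_residueField 𝔓.P
  haveI : CharP (IsLocalRing.ResidueField ↥𝔓.P) 𝔓.p := t3b_charP 𝔓
  haveI := tbq_bar_isSeparable (𝔓 := 𝔓) (N := N * mzrAux 𝔓) (mzr_not_dvd 𝔓 N hN)
  exact mzr_finite_fixed_pic0 (tbq_bar_isFunctionFieldGen 𝔓 (N * mzrAux 𝔓)) 𝔓.p 𝔓.hp.two_le
    (mzrPhi 𝔓 N) (baseAut_t3bPhi 𝔓 (N * mzrAux 𝔓)) (t3d_phi_barJ 𝔓 (N * mzrAux 𝔓))

/-- the Frobenius-fixed subgroup of the reduced Jacobian -/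
def mzrFixed : AddSubgroup (MzrJb 𝔓 N) where
  carrier := {y | mzrPhi 𝔓 N • y = y}
  zero_mem' := smul_zero _
  add_mem' := fun {a b} ha hb => by
    simp only [Set.mem_ofPred_eq] at ha hb ⊢
    rw [smul_add, ha, hb]
  neg_mem' := fun {a} ha => by
    simp only [Set.mem_ofPred_eq] at ha ⊢
    rw [smul_neg, ha]

theorem mem_mzrFixed {y : MzrJb 𝔓 N} : y ∈ mzrFixed 𝔓 N ↔ mzrPhi 𝔓 N • y = y := Iff.rfl

theorem mzrFixed_finite (hN : ¬ 𝔓.p ∣ N) : Finite ↥(mzrFixed 𝔓 N) :=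
  (mzr_finite_fixed 𝔓 N hN).to_subtype

theorem mzrRho_mem_fixed (hN : ¬ 𝔓.p ∣ N) {x : JZero N} (hx : ∀ σ : GQ, σ • x = x) :
    mzrRho 𝔓 N hN x ∈ mzrFixed 𝔓 N :=
  mzrRho_fixed 𝔓 N hN hx

/-- **(R3')** the rational points reduce into a finite set -/
theorem mzrRho_rational_finite (hN : ¬ 𝔓.p ∣ N) :
    (mzrRho 𝔓 N hN '' {x : JZero N | ∀ σ : GQ, σ • x = x}).Finite := by
  refine (mzr_finite_fixed 𝔓 N hN).subset ?_
  rintro _ ⟨x, hx, rfl⟩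
  exact mzrRho_fixed 𝔓 N hN hx

/-- **(R3), exponent form** -/
theorem mzr_exists_exponent (hN : ¬ 𝔓.p ∣ N) :
    ∃ n : ℕ, 0 < n ∧ ∀ y : MzrJb 𝔓 N, mzrPhi 𝔓 N • y = y → n • y = 0 := by
  haveI := mzrFixed_finite 𝔓 N hN
  refine ⟨Nat.card ↥(mzrFixed 𝔓 N), Nat.card_pos, fun y hy => ?_⟩
  have h1 : Nat.card ↥(mzrFixed 𝔓 N) • (⟨y, hy⟩ : ↥(mzrFixed 𝔓 N)) = 0 := card_nsmul_eq_zero'
  have h2 : ((Nat.card ↥(mzrFixed 𝔓 N) • (⟨y, hy⟩ : ↥(mzrFixed 𝔓 N)) : ↥(mzrFixed 𝔓 N)) :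
      MzrJb 𝔓 N) = 0 := by
    rw [h1]
    rfl
  rwa [AddSubgroup.coe_nsmul] at h2

/-- **(R3), exponent form for rational points**: a positive integer killing the reduction of every
rational point of `J₀(N)` -/
theorem mzrRho_rational_exponent (hN : ¬ 𝔓.p ∣ N) :
    ∃ n : ℕ, 0 < n ∧ ∀ x : JZero N, (∀ σ : GQ, σ • x = x) → n • mzrRho 𝔓 N hN x = 0 := by
  obtain ⟨n, hn, h⟩ := mzr_exists_exponent 𝔓 N hN
  exact ⟨n, hn, fun x hx => h _ (mzrRho_fixed 𝔓 N hN hx)⟩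

/-- **(R2) + (R3)**: a uniform bound for sets of rational torsion points of order prime to `ℓ` -/
theorem mzrRho_ncard_le (hN : ¬ 𝔓.p ∣ N) :
    ∃ C : ℕ, ∀ m : ℕ, ¬ 𝔓.p ∣ m → ∀ S : Set (JZero N), (∀ x ∈ S, m • x = 0) →
      (∀ x ∈ S, ∀ σ : GQ, σ • x = x) → S.Finite ∧ S.ncard ≤ C := by
  have hfin := mzr_finite_fixed 𝔓 N hN
  refine ⟨{y : MzrJb 𝔓 N | mzrPhi 𝔓 N • y = y}.ncard, fun m hm S hS hSfix => ?_⟩
  have hmaps : ∀ x ∈ S, mzrRho 𝔓 N hN x ∈ {y : MzrJb 𝔓 N | mzrPhi 𝔓 N • y = y} :=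
    fun x hx => mzrRho_fixed 𝔓 N hN (hSfix x hx)
  have hinj : Set.InjOn (mzrRho 𝔓 N hN) S := by
    intro x hx y hy hxy
    have h1 : m • (x - y) = 0 := by rw [nsmul_sub, hS x hx, hS y hy, sub_zero]
    have h2 : mzrRho 𝔓 N hN (x - y) = 0 := by rw [map_sub, hxy, sub_self]
    exact sub_eq_zero.mp (mzrRho_injective_torsion 𝔓 N hN hm (x - y) h1 h2)
  exact ⟨Set.Finite.of_injOn hmaps hinj hfin, Set.ncard_le_ncard_of_injOn _ hmaps hinj hfin⟩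

end Fermat.Agent.Mazur
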