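/-
MAZUR (Track M), package (R) (helper6), part 14: **(R4) in the shape consumed by S15**.

* converters: a place `x` of `X₀(p)` with `j(x) = j₁`, `j_p(x) = j₂`, `v(j₁) > 1`, `v(j₂) = v(j₁)^p`
  reduces to the cusp `∞`; with `v(j₁) = v(j₂)^p` it reduces to the cusp `0`;
* the cusp `∞` reduces to the cusp `∞`, the cusp `0` to the cusp `0` (values `a = 0`, `b = 1`);
* `mzrf_red_inf`, `mzrf_red_zero` : the two (R4) fields of `MzhInputs2`.
-/
import Fermat.Agent.Lib.Mazur.Red.R4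
import Fermat.Agent.Lib.Mazur.Cusp.Defs

set_option autoImplicit false
set_option linter.style.haveILetI false
set_option linter.unusedSectionVars false
set_option linter.unusedVariables false
set_option synthInstance.maxHeartbeats 400000

namespace Fermat.Agent.Mazur

open AlgebraicCurve IntermediateField Fermat.Agent.Curve Fermat.Agent.Curve.PlaceAux
  Fermat.Agent.T1 Fermat.Agent.T2 Fermat.Agent.T3
  ModularCurve Fermat.Agent.TW Fermat.Agent.S05Lib HahnSeries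

local notation "Qb" => AlgebraicClosure ℚ

/-! ### The converters -/

section Conv

variable (𝔓 : FFPlace) (p : ℕ) [NeZero p]

/-- `v(j(x)) > 1`, `v(j_p(x)) = v(j(x))^p` ⟹ `x` reduces to the cusp `∞` -/
theorem mzrf_conv_infty (x : Place Qb ↥(modularFunctionFieldBar p)) (j₁ j₂ : Qb)
    (h1 : OrdGE x (tbJ p - algebraMap Qb ↥(modularFunctionFieldBar p) j₁) 1)
    (h2 : OrdGE x (mzrJp p - algebraMap Qb ↥(modularFunctionFieldBar p) j₂) 1)
    (hv1 : 1 < 𝔓.P.valuation j₁) (hv2 : 𝔓.P.valuation j₂ = 𝔓.P.valuation j₁ ^ p) :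
    MzrRedInfty 𝔓 p x := by
  have hv0 : 𝔓.P.valuation j₁ ≠ 0 := ne_of_gt (lt_trans zero_lt_one hv1)
  have hj10 : j₁ ≠ 0 := by
    rintro rfl
    exact hv0 (map_zero _)
  have hgen := t2cp_isFunctionFieldGen_tbJ p
  have hinv := t3a_ordGE_inv_of hgen x hj10 h1
  have hpow := t3a_ordGE_pow_of x hinv p
  have hmul := t3a_ordGE_mul_of x h2 hpow
  refine ⟨j₁⁻¹, j₂ * j₁⁻¹ ^ p, ?_, ?_, hinv, hmul⟩
  · rw [map_inv₀]
    exact inv_lt_one_of_one_lt₀ hv1
  · rw [map_mul, map_pow, map_inv₀, hv2, inv_pow, mul_inv_cancel₀ (pow_ne_zero _ hv0)]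

/-- `v(j(x)) > 1`, `v(j(x)) = v(j_p(x))^p` ⟹ `x` reduces to the cusp `0` -/
theorem mzrf_conv_zero (x : Place Qb ↥(modularFunctionFieldBar p)) (j₁ j₂ : Qb)
    (h1 : OrdGE x (tbJ p - algebraMap Qb ↥(modularFunctionFieldBar p) j₁) 1)
    (h2 : OrdGE x (mzrJp p - algebraMap Qb ↥(modularFunctionFieldBar p) j₂) 1)
    (hv1 : 1 < 𝔓.P.valuation j₁) (hv2 : 𝔓.P.valuation j₁ = 𝔓.P.valuation j₂ ^ p) :
    MzrRedZero 𝔓 p x := by
  have hv2' : 1 < 𝔓.P.valuation j₂ := by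
    by_contra hcon
    push Not at hcon
    have h3 : 𝔓.P.valuation j₂ ^ p ≤ 1 := pow_le_one₀ zero_le hcon
    rw [← hv2] at h3
    exact not_le.mpr hv1 h3
  have hv0 : 𝔓.P.valuation j₂ ≠ 0 := ne_of_gt (lt_trans zero_lt_one hv2')
  have hj20 : j₂ ≠ 0 := by
    rintro rfl
    exact hv0 (map_zero _)
  have hgen := t2cp_isFunctionFieldGen_tbJ p
  have hinv := t3a_ordGE_inv_of hgen x hj20 h2
  have hpow := t3a_ordGE_pow_of x hinv p
  have hmul := t3a_ordGE_mul_of x h1 hpow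
  refine ⟨j₂⁻¹, j₁ * j₂⁻¹ ^ p, ?_, ?_, hinv, hmul⟩
  · rw [map_inv₀]
    exact inv_lt_one_of_one_lt₀ hv2'
  · rw [map_mul, map_pow, map_inv₀, hv2, inv_pow, mul_inv_cancel₀ (pow_ne_zero _ hv0)]

end Conv

/-! ### `j_p / j^p = 1 + O(q)` -/

section Series

variable (p : ℕ) [NeZero p]

theorem mzrf_leadingCoeff_jq : (jqModC Qb).leadingCoeff = 1 := by
  rw [HahnSeries.leadingCoeff_eq, Fermat.Agent.Eis.eh_order_jqModC,
    ModularCurve.coeff_jqModC_neg_one]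

theorem mzrf_leadingCoeff_jqp : (qExpand Qb p (jqModC Qb)).leadingCoeff = 1 := by
  rw [HahnSeries.leadingCoeff_eq,
    Fermat.Agent.Eis.eh_order_qExpand p (jqModC_ne_zero_of_nontrivial Qb),
    Fermat.Agent.Eis.eh_order_jqModC, qExpand_coeff_mul, ModularCurve.coeff_jqModC_neg_one]

/-- the `q`-expansion of `u = j_p / j^p` -/
theorem coe_mzrU : ((mzrU p : ↥(modularFunctionFieldBar p)) : LaurentSeries Qb) =
    qExpand Qb p (jqModC Qb) * (jqModC Qb)⁻¹ ^ p := by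
  rw [mzrU]
  push_cast
  rw [coe_mzrJp, coe_tbJ]

theorem mzrf_leadingCoeff_U :
    ((mzrU p : ↥(modularFunctionFieldBar p)) : LaurentSeries Qb).leadingCoeff = 1 := by
  have h1 : (jqModC Qb)⁻¹.leadingCoeff = 1 := by
    have h2 : ((jqModC Qb) * (jqModC Qb)⁻¹).leadingCoeff = 1 := by
      rw [mul_inv_cancel₀ (jqModC_ne_zero_of_nontrivial Qb), HahnSeries.leadingCoeff_one]
    rw [HahnSeries.leadingCoeff_mul, mzrf_leadingCoeff_jq, one_mul] at h2
    exact h2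
  have h3 : ∀ n : ℕ, ((jqModC Qb)⁻¹ ^ n).leadingCoeff = 1 := by
    intro n
    induction n with
    | zero => rw [pow_zero, HahnSeries.leadingCoeff_one]
    | succ n ih => rw [pow_succ, HahnSeries.leadingCoeff_mul, ih, h1, one_mul]
  rw [coe_mzrU, HahnSeries.leadingCoeff_mul, mzrf_leadingCoeff_jqp, h3, one_mul]

theorem mzrf_order_U :
    ((mzrU p : ↥(modularFunctionFieldBar p)) : LaurentSeries Qb).order = 0 := by
  have hJ0 : jqModC Qb ≠ 0 := jqModC_ne_zero_of_nontrivial Qb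
  have hinv : (jqModC Qb)⁻¹.order = 1 := by
    have h2 : ((jqModC Qb) * (jqModC Qb)⁻¹).order = 0 := by
      rw [mul_inv_cancel₀ hJ0, HahnSeries.order_one]
    rw [HahnSeries.order_mul hJ0 (inv_ne_zero hJ0), Fermat.Agent.Eis.eh_order_jqModC] at h2
    omega
  have hpow : ∀ n : ℕ, ((jqModC Qb)⁻¹ ^ n).order = n := by
    intro n
    induction n with
    | zero => rw [pow_zero, HahnSeries.order_one, Nat.cast_zero]
    | succ n ih =>
      rw [pow_succ, HahnSeries.order_mul (pow_ne_zero n (inv_ne_zero hJ0)) (inv_ne_zero hJ0),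
        ih, hinv]
      push_cast
      ring
  have hJp0 : qExpand Qb p (jqModC Qb) ≠ 0 := fun h =>
    hJ0 (qExpand_injective (R := Qb) (N := p) (h.trans (map_zero _).symm))
  rw [coe_mzrU, HahnSeries.order_mul hJp0 (pow_ne_zero p (inv_ne_zero hJ0)), hpow,
    Fermat.Agent.Eis.eh_order_qExpand p hJ0, Fermat.Agent.Eis.eh_order_jqModC]
  ring

/-- **`j_p / j^p - 1` vanishes to order `≥ 1` at `q = 0`** -/
theorem mzrf_order_U_sub_one (h0 : mzrU p - 1 ≠ 0) :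
    1 ≤ ((mzrU p - 1 : ↥(modularFunctionFieldBar p)) : LaurentSeries Qb).order := by
  have h0' : ((mzrU p - 1 : ↥(modularFunctionFieldBar p)) : LaurentSeries Qb) ≠ 0 := by
    intro h
    exact h0 (Subtype.ext h)
  rw [HahnSeries.le_order_iff_forall h0']
  intro m hm
  have hcoe : ((mzrU p - 1 : ↥(modularFunctionFieldBar p)) : LaurentSeries Qb) =
      ((mzrU p : ↥(modularFunctionFieldBar p)) : LaurentSeries Qb) - 1 := by
    push_cast
    rfl
  rw [hcoe, HahnSeries.coeff_sub]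
  rcases lt_or_eq_of_le (Int.lt_add_one_iff.mp hm : m ≤ 0) with hlt | rfl
  · rw [HahnSeries.coeff_eq_zero_of_lt_order (by rw [mzrf_order_U]; exact hlt),
      HahnSeries.coeff_one, if_neg (ne_of_lt hlt), sub_zero]
  · have h1 := mzrf_leadingCoeff_U p
    rw [HahnSeries.leadingCoeff_eq, mzrf_order_U] at h1
    rw [h1, HahnSeries.coeff_one, if_pos rfl, sub_self]

end Series

/-! ### The two cusps -/

section Cusp

variable (𝔓 : FFPlace) (p : ℕ) [hp : Fact p.Prime]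

theorem mzrf_val_zero : 𝔓.P.valuation (0 : Qb) < 1 := by
  rw [map_zero]
  exact zero_lt_one

theorem mzrf_val_one : 𝔓.P.valuation (1 : Qb) = 1 := map_one _

/-- `u - 1` vanishes at the cusp `∞` -/
theorem mzrf_infty_U : OrdGE (mzcInf p)
    (mzrU p - algebraMap Qb ↥(modularFunctionFieldBar p) 1) 1 := by
  rw [map_one, ordGE_iff]
  by_cases h0 : mzrU p - 1 = 0
  · exact Or.inl h0
  · right
    rw [mzcInf_ord]
    exact mzrf_order_U_sub_one p h0

/-- **the cusp `∞` reduces to the cusp `∞`** -/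
theorem mzrf_infty_redInfty : MzrRedInfty 𝔓 p (mzcInf p) := by
  refine ⟨0, 1, mzrf_val_zero 𝔓, mzrf_val_one 𝔓, ?_, mzrf_infty_U p⟩
  rw [map_zero, sub_zero, ordGE_iff]
  right
  rw [Place.ord_inv, mzcInf_ord_tbJ]
  norm_num

/-- **the cusp `0` reduces to the cusp `0`** -/
theorem mzrf_zero_redZero : MzrRedZero 𝔓 p (mzcZero p) := by
  have hJp : mzrJp p = mzcJp p := rfl
  refine ⟨0, 1, mzrf_val_zero 𝔓, mzrf_val_one 𝔓, ?_, ?_⟩
  · rw [map_zero, sub_zero, ordGE_iff]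
    right
    rw [Place.ord_inv, mzcZero_ord, hJp, mzcW_mzcJp, ← mzcInf_ord, mzcInf_ord_tbJ]
    norm_num
  · rw [map_one, ordGE_iff]
    by_cases h0 : tbJ p * (mzrJp p)⁻¹ ^ p - 1 = 0
    · exact Or.inl h0
    · right
      have hw : mzcW p (tbJ p * (mzrJp p)⁻¹ ^ p - 1) = mzrU p - 1 := by
        rw [map_sub, map_mul, map_pow, map_inv₀, map_one, mzcW_tbJ, hJp, mzcW_mzcJp, mzrU, hJp]
      rw [mzcZero_ord, hw]
      apply mzrf_order_U_sub_one p
      rw [← hw]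
      intro h
      apply h0
      have := congrArg (mzcW p) h
      rwa [mzcW_mzcW, map_zero] at this

/-- **(R4), field `red_inf` of `MzhInputs2`** -/
theorem mzrf_red_inf (hN : ¬ 𝔓.p ∣ p) (x : Place Qb ↥(modularFunctionFieldBar p)) (j₁ j₂ : Qb)
    (h1 : OrdGE x (tbJ p - algebraMap Qb ↥(modularFunctionFieldBar p) j₁) 1)
    (h2 : OrdGE x (t2cpYq p p (dvd_refl p) - algebraMap Qb ↥(modularFunctionFieldBar p) j₂) 1)
    (hv1 : 1 < 𝔓.P.valuation j₁) (hv2 : 𝔓.P.valuation j₂ = 𝔓.P.valuation j₁ ^ p) :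
    mzrRho 𝔓 p hN (mzcCls p x (mzcInf p)) = 0 :=
  mzrRho_eq_zero_of_redInfty 𝔓 p hp.out hN x (mzcInf p)
    (mzrf_conv_infty 𝔓 p x j₁ j₂ h1 h2 hv1 hv2) (mzrf_infty_redInfty 𝔓 p)

/-- **(R4), field `red_zero` of `MzhInputs2`** -/
theorem mzrf_red_zero (hN : ¬ 𝔓.p ∣ p) (x : Place Qb ↥(modularFunctionFieldBar p)) (j₁ j₂ : Qb)
    (h1 : OrdGE x (tbJ p - algebraMap Qb ↥(modularFunctionFieldBar p) j₁) 1)
    (h2 : OrdGE x (t2cpYq p p (dvd_refl p) - algebraMap Qb ↥(modularFunctionFieldBar p) j₂) 1)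
    (hv1 : 1 < 𝔓.P.valuation j₁) (hv2 : 𝔓.P.valuation j₁ = 𝔓.P.valuation j₂ ^ p) :
    mzrRho 𝔓 p hN (mzcCls p x (mzcZero p)) = 0 :=
  mzrRho_eq_zero_of_redZero 𝔓 p hp.out hN x (mzcZero p)
    (mzrf_conv_zero 𝔓 p x j₁ j₂ h1 h2 hv1 hv2) (mzrf_zero_redZero 𝔓 p)

end Cusp

end Fermat.Agent.Mazur
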