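/-
MAZUR (Track M), package (R) (helper6), part 11: **the abstract form of (R4)**.

`φ : F₁ → F₂`, `φ̄ : F̄₁ → F̄₂` as in (PB), `F₂` with good reduction with respect to `j₂ = φ j₁`
(`j̄₂ = φ̄ j̄₁`).  If the place `x` of `F₁` satisfies `(1/j₁)(x) ∈ 𝔪` and `u₁(x) ∈ A^×` (resp. `∈ 𝔪`)
for a function `u₁` with `φ u₁` integral over `K[1/j₂]` and Gauss-integral, and `Q₁` is the only
pole of `j̄₁` at which `ū₁` does not vanish (resp. vanishes), then `r (φ^* x) = φ̄^* Q₁`.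
-/
import Fermat.Agent.Lib.Mazur.Red.PB

set_option autoImplicit false
set_option linter.style.haveILetI false
set_option linter.unusedSectionVars false
set_option linter.unusedVariables false

namespace Fermat.Agent.Mazur

open AlgebraicCurve IntermediateField Fermat.Agent.Curve Fermat.Agent.Curve.PlaceAux
  Fermat.Agent.T1 Fermat.Agent.T3

section Along

variable {K F F' : Type*} [Field K] [Field F] [Field F'] [Algebra K F] [Algebra K F']
  (φ : F →ₐ[K] F') (hφ : φ.toRingHom.IsIntegral) (w : Place K F')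

include hφ in
theorem mzr_ramificationIndexAlong_pos : 0 < Place.ramificationIndexAlong φ w := by
  letI := algebraAlong φ
  haveI := isScalarTower_along φ
  haveI := isIntegral_along φ hφ
  exact w.ramificationIndex_pos (F := F)

theorem mzr_ord_along_neg_iff (f : F) :
    w.ord (φ f) < 0 ↔ (w.restrictAlong φ hφ).ord f < 0 := by
  have he : (0 : ℤ) < (Place.ramificationIndexAlong φ w : ℤ) := by
    exact_mod_cast mzr_ramificationIndexAlong_pos φ hφ w
  rw [Place.ord_restrictAlong φ hφ]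
  constructor
  · intro h
    by_contra hcon
    push Not at hcon
    nlinarith
  · intro h
    nlinarith

theorem mzr_ord_along_pos_iff (f : F) :
    0 < w.ord (φ f) ↔ 0 < (w.restrictAlong φ hφ).ord f := by
  have he : (0 : ℤ) < (Place.ramificationIndexAlong φ w : ℤ) := by
    exact_mod_cast mzr_ramificationIndexAlong_pos φ hφ w
  rw [Place.ord_restrictAlong φ hφ]
  constructor
  · intro h
    by_contra hcon
    push Not at hcon
    nlinarith
  · intro h
    nlinarith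

theorem mzr_ord_along_nonpos_iff (f : F) :
    w.ord (φ f) ≤ 0 ↔ (w.restrictAlong φ hφ).ord f ≤ 0 := by
  rw [← not_lt, ← not_lt, mzr_ord_along_pos_iff φ hφ w f]

theorem mzr_ord_along_nonneg_iff (f : F) :
    0 ≤ w.ord (φ f) ↔ 0 ≤ (w.restrictAlong φ hφ).ord f := by
  rw [← not_lt, ← not_lt, mzr_ord_along_neg_iff φ hφ w f]

/-- a value is preserved by pull-back -/
theorem mzr_ordGE_along {f : F} (h : OrdGE (w.restrictAlong φ hφ) f 1) : OrdGE w (φ f) 1 := by
  rcases (ordGE_iff _).mp h with h0 | h0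
  · rw [h0, map_zero]
    exact ordGE_zero w 1
  · rw [ordGE_iff]
    right
    have h1 : 0 < (w.restrictAlong φ hφ).ord f := by omega
    have h2 := (mzr_ord_along_pos_iff φ hφ w f).mpr h1
    omega

theorem mzr_ordGE_along_sub {f : F} {c : K}
    (h : OrdGE (w.restrictAlong φ hφ) (f - algebraMap K F c) 1) :
    OrdGE w (φ f - algebraMap K F' c) 1 := by
  have h1 := mzr_ordGE_along φ hφ w h
  rwa [map_sub, AlgHom.commutes] at h1

end Along

section Abs

variable {K F₁ F₂ k Fb₁ Fb₂ : Type*} [Field K] [Field F₁] [Field F₂] [Algebra K F₁] [Algebra K F₂]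
  [Field k] [Field Fb₁] [Field Fb₂] [Algebra k Fb₁] [Algebra k Fb₂]
  [IsAlgClosed K] [IsAlgClosed k]
  [HasPrincipalDivisors K F₂] [HasPrincipalDivisors k Fb₂]

/-- on the chart `1/j`: a place with `(1/j)(w) ∈ 𝔪` reduces to a pole of `j̄` -/
theorem mzr_red_pole {d : TbBase K F₂ k Fb₂} {ℓ : ℕ} {j : F₂} (hg : T3aGood d ℓ j)
    (w : Place K F₂) {a : ↥d.A} (ha : d.resA a = 0)
    (hw : OrdGE w (j⁻¹ - algebraMap K F₂ (a : K)) 1) :
    (t3aR hg w).ord hg.xb < 0 := by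
  have h1 := (t3aR_isRed hg).eval2 w ⟨a, hw⟩ j⁻¹ (t3a_x_mem_C hg.inv) a hw
  rw [ha, map_zero, sub_zero, hg.res_inv] at h1
  rcases (ordGE_iff _).mp h1 with h0 | h0
  · exact absurd (inv_eq_zero.mp h0) hg.xb_ne_zero
  · rw [Place.ord_inv] at h0
    omega

/-- on the chart `1/j`: the value of an integral function is preserved, nonvanishing case -/
theorem mzr_red_unit {d : TbBase K F₂ k Fb₂} {ℓ : ℕ} {j : F₂} (hg : T3aGood d ℓ j)
    (w : Place K F₂) {a : ↥d.A} (hw : OrdGE w (j⁻¹ - algebraMap K F₂ (a : K)) 1)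
    {u : F₂} (huC : u ∈ t3aC d j⁻¹) {b : ↥d.A} (hb : d.resA b ≠ 0)
    (hu : OrdGE w (u - algebraMap K F₂ (b : K)) 1) :
    (t3aR hg w).ord (d.res ⟨u, huC.1⟩) ≤ 0 := by
  have h1 := (t3aR_isRed hg).eval2 w ⟨a, hw⟩ u huC b hu
  by_contra hcon
  push Not at hcon
  have h2 : OrdGE (t3aR hg w) (d.res ⟨u, huC.1⟩) 1 := by
    rw [ordGE_iff]
    right
    omega
  have h3 := h2.sub _ h1
  rw [sub_sub_cancel] at h3
  exact hb (t3a_const_eq_zero_of_ordGE _ h3)

/-- on the chart `1/j`: the value of an integral function is preserved, vanishing case -/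
theorem mzr_red_zero {d : TbBase K F₂ k Fb₂} {ℓ : ℕ} {j : F₂} (hg : T3aGood d ℓ j)
    (w : Place K F₂) {a : ↥d.A} (hw : OrdGE w (j⁻¹ - algebraMap K F₂ (a : K)) 1)
    {u : F₂} (huC : u ∈ t3aC d j⁻¹) {b : ↥d.A} (hb : d.resA b = 0)
    (hu : OrdGE w (u - algebraMap K F₂ (b : K)) 1) (hu0 : d.res ⟨u, huC.1⟩ ≠ 0) :
    0 < (t3aR hg w).ord (d.res ⟨u, huC.1⟩) := by
  have h1 := (t3aR_isRed hg).eval2 w ⟨a, hw⟩ u huC b hu
  rw [hb, map_zero, sub_zero] at h1
  rcases (ordGE_iff _).mp h1 with h0 | h0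
  · exact absurd h0 hu0
  · omega

/-- a zero of `j` reduces to a place where `j̄` is regular -/
theorem mzr_red_regular {d : TbBase K F₂ k Fb₂} {ℓ : ℕ} {j : F₂} (hg : T3aGood d ℓ j)
    (w : Place K F₂) (hw : T3aChartPlace d j w) : 0 ≤ (t3aR hg w).ord hg.xb :=
  (t3aR_isRed hg).ord_nonneg_of_chartPlace hg hw

variable (φ : F₁ →ₐ[K] F₂) (hφ : φ.toRingHom.IsIntegral)
    (hFI : FundamentalIdentityAlong K φ hφ)
    (φb : Fb₁ →ₐ[k] Fb₂) (hφb : φb.toRingHom.IsIntegral)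
    (hFIb : FundamentalIdentityAlong k φb hφb)
    (hdeg : finrankAlong K φ = finrankAlong k φb)
    {d : TbBase K F₂ k Fb₂} {ℓ : ℕ} {j₂ : F₂} (hg : T3aGood d ℓ j₂)
    {jb₁ : Fb₁} (hjb : φb jb₁ = hg.xb)

include hFI hFIb hdeg hjb in
/-- **abstract (R4)**: `f₁ ∈ F₁` with `f₁(x) = c ∈ 𝔪`, `φ f₁` Gauss-integral with reduction `φ̄ f̄₁`,
`f̄₁` a uniformiser at the pole `Q₁` of `j̄₁`; all places over `x` reduce to places over `Q₁`;
the poles of `φ f₁` are chart places for `j₂` -/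
theorem mzr_red_pullback_abs (x : Place K F₁) (hx : x.deg = 1) (Q₁ : Place k Fb₁)
    (hQ₁ : Q₁.deg = 1) (hQj : Q₁.ord jb₁ < 0)
    (f₁ : F₁) (hf₁ : f₁ ∉ Set.range (algebraMap K F₁)) {c : ↥d.A} (hc : d.resA c = 0)
    (hxf : OrdGE x (f₁ - algebraMap K F₁ (c : K)) 1)
    (hfO : φ f₁ ∈ d.Ov) (fb₁ : Fb₁) (hres : d.res ⟨φ f₁, hfO⟩ = φb fb₁) (hfb : Q₁.ord fb₁ = 1)
    (ha : ∀ w : Place K F₂, w.restrictAlong φ hφ = x →
      (t3aR hg w).restrictAlong φb hφb = Q₁)
    (hpole : ∀ w : Place K F₂, w.ord (φ f₁) < 0 → T3aChartPlace d j₂ w) :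
    Finsupp.mapDomain (t3aR hg) (Divisor.pullbackAlong φ hφ (Finsupp.single x 1)) =
      Divisor.pullbackAlong φb hφb (Finsupp.single Q₁ 1) := by
  have hcO : algebraMap K F₂ (c : K) ∈ d.Ov := d.algebraMap_mem c
  have hφf : φ (f₁ - algebraMap K F₁ (c : K)) = φ f₁ - algebraMap K F₂ (c : K) := by
    rw [map_sub, AlgHom.commutes]
  have hfO' : φ (f₁ - algebraMap K F₁ (c : K)) ∈ d.Ov := by
    rw [hφf]
    exact d.Ov.sub_mem hfO hcO
  have hres' : d.res ⟨φ (f₁ - algebraMap K F₁ (c : K)), hfO'⟩ = φb fb₁ := by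
    rw [d.res_congr hfO' hφf, d.res_sub' hfO hcO, d.res_algebraMap c, hc, map_zero, sub_zero, hres]
  have hne : f₁ - algebraMap K F₁ (c : K) ≠ 0 := by
    intro h0
    exact hf₁ ⟨(c : K), (sub_eq_zero.mp h0).symm⟩
  have hfP : 0 < x.ord (f₁ - algebraMap K F₁ (c : K)) := by
    rcases (ordGE_iff _).mp hxf with h0 | h0
    · exact absurd h0 hne
    · omega
  refine mzr_pullback_red φ hφ hFI φb hφb hFIb hdeg hg x hx Q₁ hQ₁ ha
    (f₁ - algebraMap K F₁ (c : K)) hfO' fb₁ hres' hfP hfb ?_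
  intro w hw hQ
  rw [hφf] at hw
  have hw' : w.ord (φ f₁) < 0 := by
    by_contra hcon
    push Not at hcon
    have h1 : OrdGE w (φ f₁) 0 := (ordGE_iff _).mpr (Or.inr hcon)
    have h2 : OrdGE w (algebraMap K F₂ (c : K)) 0 := by
      rw [ordGE_iff]
      right
      rw [ord_algebraMap]
    have h3 := h1.sub _ h2
    rcases (ordGE_iff _).mp h3 with h0 | h0
    · rw [h0, Place.ord_zero] at hw
      exact lt_irrefl _ hw
    · omega
  have h1 := mzr_red_regular hg w (hpole w hw')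
  rw [← hjb, mzr_ord_along_nonneg_iff φb hφb, hQ] at h1
  omega

end Abs

end Fermat.Agent.Mazur
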