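/-
MAZUR (Track M), package (R) (helper6), part 13: **(R4) places of `X₀(p)` reducing to a cusp**.

`p` prime, `𝔓` a place of `ℚ̄` over `ℓ ≠ p`.  A place `x` of `ℚ̄(X₀(p))` *reduces to the cusp `∞`* if
`(1/j)(x) ∈ 𝔪` and `(j_p / j^p)(x) ∈ A^×`, and *to the cusp `0`* if `(1/j_p)(x) ∈ 𝔪` and
`(j / j_p^p)(x) ∈ A^×`.  Two places reducing to the same cusp have the same image under the
reduction map `mzrRho` of the Jacobian:

* `mzrRho_eq_zero_of_redInfty`, `mzrRho_eq_zero_of_redZero`.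

Proof: (PB) `mzr_pullback_red` for the degeneracy map `X₀(p e) → X₀(p)`, with the uniformiser `1/j`
(resp. `1/j_p`) at the cusp; all places above `x` reduce to places above the cusp `∞̄` (resp. `0̄`) of
the reduced curve `X̄₀(p)` by the evaluation property of the reduction map of places, and the
characterisation `mzrb_eq_inf`/`mzrb_eq_zero` of the two poles of `j̄`.
-/
import Fermat.Agent.Lib.Mazur.Red.R4Abs
import Fermat.Agent.Lib.Mazur.Red.R4Chart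

set_option autoImplicit false
set_option linter.style.haveILetI false
set_option linter.unusedSectionVars false
set_option linter.unusedVariables false
set_option synthInstance.maxHeartbeats 400000

namespace Fermat.Agent.Mazur

open AlgebraicCurve IntermediateField Fermat.Agent.Curve Fermat.Agent.Curve.PlaceAux
  Fermat.Agent.T1 Fermat.Agent.T2 Fermat.Agent.T3
  ModularCurve Fermat.Agent.TW Fermat.Agent.S05Lib HahnSeries

local notation "Qb" => AlgebraicClosure ℚ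

/-! ### Valuation helpers -/

section Val

variable {K F k Fb : Type*} [Field K] [Field F] [Algebra K F] [Field k] [Field Fb] [Algebra k Fb]

theorem mzr_val_resA_zero (d : TbBase K F k Fb) {a : K} (h : d.A.valuation a < 1) :
    ∃ ha : a ∈ d.A, d.resA ⟨a, ha⟩ = 0 := by
  have ha : a ∈ d.A := (d.A.valuation_le_one_iff a).mp h.le
  exact ⟨ha, (d.resA_eq_zero_iff _).mpr ((d.A.valuation_lt_one_iff ⟨a, ha⟩).mpr h)⟩

theorem mzr_val_resA_ne_zero (d : TbBase K F k Fb) {b : K} (h : d.A.valuation b = 1) :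
    ∃ hb : b ∈ d.A, d.resA ⟨b, hb⟩ ≠ 0 := by
  have hb : b ∈ d.A := (d.A.valuation_le_one_iff b).mp h.le
  refine ⟨hb, fun h0 => ?_⟩
  have h1 := (d.A.valuation_lt_one_iff ⟨b, hb⟩).mp ((d.resA_eq_zero_iff _).mp h0)
  have h2 : d.A.valuation b < 1 := h1
  rw [h] at h2
  exact lt_irrefl _ h2

theorem mzr_val_mul_lt_one (A : ValuationSubring K) {a b : K} (ha : A.valuation a < 1)
    (hb : A.valuation b = 1) {n : ℕ} (hn : n ≠ 0) (m : ℕ) :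
    A.valuation (a ^ n * b⁻¹ ^ m) < 1 := by
  rw [map_mul, map_pow, map_pow, map_inv₀, hb, inv_one, one_pow, mul_one]
  exact pow_lt_one₀ zero_le ha hn

end Val

/-! ### The definitions -/

section Defs

variable (𝔓 : FFPlace) (p : ℕ) [NeZero p]

/-- the place `x` of `ℚ̄(X₀(p))` **reduces to the cusp `∞` at `𝔓`**: `(1/j)(x) ∈ 𝔪` and
`(j_p / j^p)(x) ∈ A^×` -/
def MzrRedInfty (x : Place Qb ↥(modularFunctionFieldBar p)) : Prop :=
  ∃ a b : Qb, 𝔓.P.valuation a < 1 ∧ 𝔓.P.valuation b = 1 ∧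
    OrdGE x ((tbJ p)⁻¹ - algebraMap Qb ↥(modularFunctionFieldBar p) a) 1 ∧
    OrdGE x (mzrJp p * (tbJ p)⁻¹ ^ p - algebraMap Qb ↥(modularFunctionFieldBar p) b) 1

/-- the place `x` of `ℚ̄(X₀(p))` **reduces to the cusp `0` at `𝔓`**: `(1/j_p)(x) ∈ 𝔪` and
`(j / j_p^p)(x) ∈ A^×` -/
def MzrRedZero (x : Place Qb ↥(modularFunctionFieldBar p)) : Prop :=
  ∃ a b : Qb, 𝔓.P.valuation a < 1 ∧ 𝔓.P.valuation b = 1 ∧
    OrdGE x ((mzrJp p)⁻¹ - algebraMap Qb ↥(modularFunctionFieldBar p) a) 1 ∧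
    OrdGE x (tbJ p * (mzrJp p)⁻¹ ^ p - algebraMap Qb ↥(modularFunctionFieldBar p) b) 1

theorem mzr_sub_mem_degZero (x y : Place Qb ↥(modularFunctionFieldBar p)) :
    (Finsupp.single x 1 - Finsupp.single y 1 : Divisor Qb ↥(modularFunctionFieldBar p)) ∈
      Divisor.degZero (K := Qb) (F := ↥(modularFunctionFieldBar p)) := by
  rw [Divisor.mem_degZero, map_sub, Divisor.degree_single, Divisor.degree_single,
    deg_eq_one (t2cp_isFunctionFieldGen_tbJ p) x, deg_eq_one (t2cp_isFunctionFieldGen_tbJ p) y]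
  norm_num

/-- `1/j` is not constant -/
theorem mzr_tbJ_inv_notMem :
    (tbJ p)⁻¹ ∉ Set.range (algebraMap Qb ↥(modularFunctionFieldBar p)) := by
  rintro ⟨c, hc⟩
  apply (CurveP.isFunctionFieldGen_inv (t2cp_isFunctionFieldGen_tbJ p)).transcendental
  rw [← hc]
  exact isAlgebraic_algebraMap c

/-- `1/j_p` is not constant -/
theorem mzr_mzrJp_inv_notMem :
    (mzrJp p)⁻¹ ∉ Set.range (algebraMap Qb ↥(modularFunctionFieldBar p)) := by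
  rintro ⟨c, hc⟩
  have hy0 : mzrJp p ≠ 0 := t2cpYq_ne_zero p p (dvd_refl p)
  have hc0 : c ≠ 0 := by
    rintro rfl
    rw [map_zero] at hc
    exact inv_ne_zero hy0 hc.symm
  have h1 : mzrJp p = algebraMap Qb ↥(modularFunctionFieldBar p) c⁻¹ := by
    rw [map_inv₀, hc, inv_inv]
  have h2 := congrArg (fun z : ↥(modularFunctionFieldBar p) => (z : LaurentSeries Qb).order) h1
  simp only [coe_mzrJp] at h2
  rw [Fermat.Agent.Eis.eh_order_qExpand p (jqModC_ne_zero_of_nontrivial Qb),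
    Fermat.Agent.Eis.eh_order_jqModC] at h2
  have h3 : ((algebraMap Qb ↥(modularFunctionFieldBar p) c⁻¹ : ↥(modularFunctionFieldBar p)) :
      LaurentSeries Qb) = HahnSeries.C c⁻¹ := by
    rw [HahnSeries.C_apply, ← algebraMap_laurentSeries_eq_single]
    rfl
  rw [h3, HahnSeries.order_C] at h2
  have hp0 : (p : ℤ) ≠ 0 := by exact_mod_cast NeZero.ne p
  omega

end Defs

/-! ### Reduction of the pull-back of a place reducing to a cusp -/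

section Main

variable (𝔓 : FFPlace) (p e : ℕ) [NeZero p] [NeZero e]

set_option maxHeartbeats 1600000 in
/-- **(R4∞), divisor form**: if `x` reduces to the cusp `∞`, the reduction of `α^* x` is `ᾱ^* ∞̄` -/
theorem mzr_red_cuspInfty (hp : p.Prime) (h49 : 4 ∣ p * e ∨ 9 ∣ p * e) (hM : ¬ 𝔓.p ∣ p * e)
    [HasPrincipalDivisors (IsLocalRing.ResidueField ↥𝔓.P) ↥(tbBarF 𝔓 (p * e))]
    (x : Place Qb ↥(modularFunctionFieldBar p)) (hx : MzrRedInfty 𝔓 p x) :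
    Finsupp.mapDomain (t3aR (t3a_good_modular 𝔓 (p * e) h49 hM))
        (Divisor.pullbackAlong (heckeAlphaBar Qb p e) (t3h_alphaIntegral p e)
          (Finsupp.single x 1)) =
      Divisor.pullbackAlong (mzrAlphaB 𝔓 p e) (mzrAlphaB_isIntegral 𝔓 p e)
        (Finsupp.single (mzrbInf (IsLocalRing.ResidueField ↥𝔓.P) p hp) 1) := by
  obtain ⟨a, b, hva, hvb, hxa, hxb⟩ := hx
  have hg := t3a_good_modular 𝔓 (p * e) h49 hM
  obtain ⟨haA, ha0⟩ := mzr_val_resA_zero (t3aBase 𝔓 (p * e) hM) hva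
  obtain ⟨hbA, hb0⟩ := mzr_val_resA_ne_zero (t3aBase 𝔓 (p * e) hM) hvb
  have hjb : mzrAlphaB 𝔓 p e (tbBarJ 𝔓 p) = hg.xb :=
    (mzrAlphaB_tbBarJ 𝔓 p e).trans (t3aBase_res_tbJ 𝔓 (p * e) hM).symm
  have hN' : ((p : ℕ) : IsLocalRing.ResidueField ↥𝔓.P) ≠ 0 :=
    tbq_natCast_ne_zero (mzr_not_dvd_left 𝔓 p e hM)
  have hαj : heckeAlphaBar Qb p e (tbJ p)⁻¹ = (tbJ (p * e))⁻¹ := by
    rw [map_inv₀, mzrAlpha_tbJ]
  have hfO : heckeAlphaBar Qb p e (tbJ p)⁻¹ ∈ (t3aBase 𝔓 (p * e) hM).Ov := by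
    rw [hαj]
    exact tbJ_inv_mem_tbOvQ
  have hres : (t3aBase 𝔓 (p * e) hM).res ⟨heckeAlphaBar Qb p e (tbJ p)⁻¹, hfO⟩ =
      mzrAlphaB 𝔓 p e (tbBarJ 𝔓 p)⁻¹ := by
    have h1 : mzrAlphaB 𝔓 p e (tbBarJ 𝔓 p)⁻¹ = (tbBarJ 𝔓 (p * e))⁻¹ := by
      rw [map_inv₀, mzrAlphaB_tbBarJ]
    exact ((t3aBase 𝔓 (p * e) hM).res_congr hfO hαj).trans
      ((mzr_res_tbJ_inv 𝔓 p e hM).trans h1.symm)
  have hQj : (mzrbInf (IsLocalRing.ResidueField ↥𝔓.P) p hp).ord (tbBarJ 𝔓 p) < 0 := by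
    have h := mzrbInf_ord_J (IsLocalRing.ResidueField ↥𝔓.P) p hp
    have h' : (mzrbInf (IsLocalRing.ResidueField ↥𝔓.P) p hp).ord (tbBarJ 𝔓 p) = -1 := h
    omega
  refine mzr_red_pullback_abs (heckeAlphaBar Qb p e) (t3h_alphaIntegral p e)
    (t3h_alphaFundamental p e) (mzrAlphaB 𝔓 p e) (mzrAlphaB_isIntegral 𝔓 p e)
    (mzrAlphaB_fundamental 𝔓 p e hM) (mzr_finrankAlong_eq 𝔓 p e hM) hg hjb
    x (deg_eq_one (t2cp_isFunctionFieldGen_tbJ p) x)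
    (mzrbInf (IsLocalRing.ResidueField ↥𝔓.P) p hp)
    (deg_eq_one (tbq_bar_isFunctionFieldGen 𝔓 p) _) hQj
    (tbJ p)⁻¹ (mzr_tbJ_inv_notMem p) (c := ⟨a, haA⟩) ha0 hxa hfO (tbBarJ 𝔓 p)⁻¹ hres
    (mzrbInf_ord_J_inv (IsLocalRing.ResidueField ↥𝔓.P) p hp) ?_ ?_
  · -- all places over `x` reduce to places over `∞̄`
    intro w hw
    have hwa : OrdGE w ((tbJ (p * e))⁻¹ -
        algebraMap Qb ↥(modularFunctionFieldBar (p * e)) a) 1 := by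
      have h := mzr_ordGE_along_sub (heckeAlphaBar Qb p e) (t3h_alphaIntegral p e) w
        (f := (tbJ p)⁻¹) (c := a) (by rw [hw]; exact hxa)
      rwa [hαj] at h
    have hwb : OrdGE w (mzrUM p e - algebraMap Qb ↥(modularFunctionFieldBar (p * e)) b) 1 := by
      have h := mzr_ordGE_along_sub (heckeAlphaBar Qb p e) (t3h_alphaIntegral p e) w
        (f := mzrU p) (c := b) (by rw [hw]; exact hxb)
      rwa [mzrAlpha_mzrU] at h
    have h1 := mzr_red_pole hg w (a := ⟨a, haA⟩) ha0 hwa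
    have h2 := mzr_red_unit hg w (a := ⟨a, haA⟩) hwa (mzrUM_mem_C 𝔓 p e hM) (b := ⟨b, hbA⟩)
      hb0 hwb
    rw [mzr_res_UM] at h2
    rw [← hjb] at h1
    exact mzrb_eq_inf (IsLocalRing.ResidueField ↥𝔓.P) p hp hN' _
      ((mzr_ord_along_neg_iff _ (mzrAlphaB_isIntegral 𝔓 p e) _ _).mp h1)
      ((mzr_ord_along_nonpos_iff _ (mzrAlphaB_isIntegral 𝔓 p e) _ _).mp h2)
  · -- the poles of `1/j` are chart places for `j`
    intro w hw
    rw [hαj, Place.ord_inv] at hw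
    refine ⟨0, ?_⟩
    have h0 : tbJ (p * e) - algebraMap Qb ↥(modularFunctionFieldBar (p * e))
        ((0 : ↥(t3aBase 𝔓 (p * e) hM).A) : Qb) = tbJ (p * e) := by
      rw [ZeroMemClass.coe_zero, map_zero, sub_zero]
    rw [h0, ordGE_iff]
    right
    omega

/-- the values of `1/j` and `j_p / j^p` at a place reducing to the cusp `0` -/
theorem mzr_redZero_values (x : Place Qb ↥(modularFunctionFieldBar p)) {a b : Qb} (hb0 : b ≠ 0)
    (hxa : OrdGE x ((mzrJp p)⁻¹ - algebraMap Qb ↥(modularFunctionFieldBar p) a) 1)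
    (hxb : OrdGE x (tbJ p * (mzrJp p)⁻¹ ^ p - algebraMap Qb ↥(modularFunctionFieldBar p) b) 1)
    {n : ℕ} (hn : p * p = n + 1) :
    OrdGE x ((tbJ p)⁻¹ - algebraMap Qb ↥(modularFunctionFieldBar p) (a ^ p * b⁻¹ ^ 1)) 1 ∧
    OrdGE x (mzrU p - algebraMap Qb ↥(modularFunctionFieldBar p) (a ^ n * b⁻¹ ^ p)) 1 := by
  have hgen := t2cp_isFunctionFieldGen_tbJ p
  have hy0 : mzrJp p ≠ 0 := t2cpYq_ne_zero p p (dvd_refl p)
  have hj0 : tbJ p ≠ 0 := fun h0 => hgen.transcendental (h0 ▸ isAlgebraic_zero)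
  have hz0 : (mzrJp p)⁻¹ ≠ 0 := inv_ne_zero hy0
  have htinv := t3a_ordGE_inv_of hgen x hb0 hxb
  have hyp := t3a_ordGE_pow_of x hxa p
  have hyn := t3a_ordGE_pow_of x hxa n
  have htp := t3a_ordGE_pow_of x htinv p
  have h1 := t3a_ordGE_mul_of x hyp htinv
  have h2 := t3a_ordGE_mul_of x hyn htp
  have e1 : (mzrJp p)⁻¹ ^ p * (tbJ p * (mzrJp p)⁻¹ ^ p)⁻¹ = (tbJ p)⁻¹ := by
    rw [mul_inv, mul_comm (tbJ p)⁻¹, ← mul_assoc, mul_inv_cancel₀ (pow_ne_zero p hz0), one_mul]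
  have e2 : (mzrJp p)⁻¹ ^ n * ((tbJ p * (mzrJp p)⁻¹ ^ p)⁻¹) ^ p = mzrU p := by
    have h3 : ((mzrJp p)⁻¹ ^ p) ^ p = (mzrJp p)⁻¹ ^ n * (mzrJp p)⁻¹ := by
      rw [← pow_mul, hn, pow_succ]
    have hZ : (mzrJp p)⁻¹ ^ n ≠ 0 := pow_ne_zero n hz0
    rw [mzrU, mul_inv, mul_pow, inv_pow ((mzrJp p)⁻¹ ^ p), h3, mul_inv, inv_inv]
    calc (mzrJp p)⁻¹ ^ n * ((tbJ p)⁻¹ ^ p * (((mzrJp p)⁻¹ ^ n)⁻¹ * mzrJp p))
        = ((mzrJp p)⁻¹ ^ n * ((mzrJp p)⁻¹ ^ n)⁻¹) * (mzrJp p * (tbJ p)⁻¹ ^ p) := by ring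
      _ = mzrJp p * (tbJ p)⁻¹ ^ p := by rw [mul_inv_cancel₀ hZ, one_mul]
  rw [e1] at h1
  rw [e2] at h2
  rw [pow_one]
  exact ⟨h1, h2⟩

set_option maxHeartbeats 1600000 in
/-- **(R4₀), divisor form**: if `x` reduces to the cusp `0`, the reduction of `α^* x` is `ᾱ^* 0̄` -/
theorem mzr_red_cuspZero (hp : p.Prime) (h49 : 4 ∣ p * e ∨ 9 ∣ p * e) (hM : ¬ 𝔓.p ∣ p * e)
    [HasPrincipalDivisors (IsLocalRing.ResidueField ↥𝔓.P) ↥(tbBarF 𝔓 (p * e))]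
    (x : Place Qb ↥(modularFunctionFieldBar p)) (hx : MzrRedZero 𝔓 p x) :
    Finsupp.mapDomain (t3aR (t3a_good_modular 𝔓 (p * e) h49 hM))
        (Divisor.pullbackAlong (heckeAlphaBar Qb p e) (t3h_alphaIntegral p e)
          (Finsupp.single x 1)) =
      Divisor.pullbackAlong (mzrAlphaB 𝔓 p e) (mzrAlphaB_isIntegral 𝔓 p e)
        (Finsupp.single (mzrbZero (IsLocalRing.ResidueField ↥𝔓.P) p hp
          (tbq_natCast_ne_zero (mzr_not_dvd_left 𝔓 p e hM))) 1) := by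
  obtain ⟨a, b, hva, hvb, hxa, hxb⟩ := hx
  have hg := t3a_good_modular 𝔓 (p * e) h49 hM
  have hN' : ((p : ℕ) : IsLocalRing.ResidueField ↥𝔓.P) ≠ 0 :=
    tbq_natCast_ne_zero (mzr_not_dvd_left 𝔓 p e hM)
  have hb0 : b ≠ 0 := by
    rintro rfl
    rw [map_zero] at hvb
    exact zero_ne_one hvb
  obtain ⟨n, hn⟩ : ∃ n : ℕ, p * p = n + 1 :=
    Nat.exists_eq_succ_of_ne_zero (mul_ne_zero (NeZero.ne p) (NeZero.ne p))
  have hn0 : n ≠ 0 := by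
    rintro rfl
    have h2 := hp.two_le
    nlinarith
  obtain ⟨hx1, hx2⟩ := mzr_redZero_values p x hb0 hxa hxb hn
  have hv1 := mzr_val_mul_lt_one 𝔓.P hva hvb (NeZero.ne p) 1
  have hv2 := mzr_val_mul_lt_one 𝔓.P hva hvb hn0 p
  obtain ⟨haA, ha0⟩ := mzr_val_resA_zero (t3aBase 𝔓 (p * e) hM) hva
  obtain ⟨h1A, h10⟩ := mzr_val_resA_zero (t3aBase 𝔓 (p * e) hM) hv1
  obtain ⟨h2A, h20⟩ := mzr_val_resA_zero (t3aBase 𝔓 (p * e) hM) hv2
  have hjb : mzrAlphaB 𝔓 p e (tbBarJ 𝔓 p) = hg.xb :=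
    (mzrAlphaB_tbBarJ 𝔓 p e).trans (t3aBase_res_tbJ 𝔓 (p * e) hM).symm
  have hαj : heckeAlphaBar Qb p e (tbJ p)⁻¹ = (tbJ (p * e))⁻¹ := by
    rw [map_inv₀, mzrAlpha_tbJ]
  have hαy : heckeAlphaBar Qb p e (mzrJp p)⁻¹ = (mzrJpM p e)⁻¹ := by
    rw [map_inv₀, mzrAlpha_mzrJp]
  have hfO : heckeAlphaBar Qb p e (mzrJp p)⁻¹ ∈ (t3aBase 𝔓 (p * e) hM).Ov := by
    rw [hαy]
    exact mzrJpM_inv_mem 𝔓 p e hM
  have hres : (t3aBase 𝔓 (p * e) hM).res ⟨heckeAlphaBar Qb p e (mzrJp p)⁻¹, hfO⟩ =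
      mzrAlphaB 𝔓 p e (mzrbJp (IsLocalRing.ResidueField ↥𝔓.P) p)⁻¹ := by
    have h1 : mzrAlphaB 𝔓 p e (mzrbJp (IsLocalRing.ResidueField ↥𝔓.P) p)⁻¹ =
        (mzrbJpM 𝔓 p e)⁻¹ := by
      rw [map_inv₀, mzrAlphaB_mzrbJp]
    exact ((t3aBase 𝔓 (p * e) hM).res_congr hfO hαy).trans
      ((mzr_res_JpM_inv 𝔓 p e hM).trans h1.symm)
  have hQj : (mzrbZero (IsLocalRing.ResidueField ↥𝔓.P) p hp hN').ord (tbBarJ 𝔓 p) < 0 := by
    have h := mzrbZero_ord_J (IsLocalRing.ResidueField ↥𝔓.P) p hp hN'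
    have h' : (mzrbZero (IsLocalRing.ResidueField ↥𝔓.P) p hp hN').ord (tbBarJ 𝔓 p) =
        -(p : ℤ) := h
    have hp0 : (0 : ℤ) < p := by exact_mod_cast hp.pos
    omega
  refine mzr_red_pullback_abs (heckeAlphaBar Qb p e) (t3h_alphaIntegral p e)
    (t3h_alphaFundamental p e) (mzrAlphaB 𝔓 p e) (mzrAlphaB_isIntegral 𝔓 p e)
    (mzrAlphaB_fundamental 𝔓 p e hM) (mzr_finrankAlong_eq 𝔓 p e hM) hg hjb
    x (deg_eq_one (t2cp_isFunctionFieldGen_tbJ p) x)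
    (mzrbZero (IsLocalRing.ResidueField ↥𝔓.P) p hp hN')
    (deg_eq_one (tbq_bar_isFunctionFieldGen 𝔓 p) _) hQj
    (mzrJp p)⁻¹ (mzr_mzrJp_inv_notMem p) (c := ⟨a, haA⟩) ha0 hxa hfO
    (mzrbJp (IsLocalRing.ResidueField ↥𝔓.P) p)⁻¹ hres
    (mzrbZero_ord_Jp_inv (IsLocalRing.ResidueField ↥𝔓.P) p hp hN') ?_ ?_
  · -- all places over `x` reduce to places over `0̄`
    intro w hw
    have hwa : OrdGE w ((tbJ (p * e))⁻¹ -
        algebraMap Qb ↥(modularFunctionFieldBar (p * e)) (a ^ p * b⁻¹ ^ 1)) 1 := by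
      have h := mzr_ordGE_along_sub (heckeAlphaBar Qb p e) (t3h_alphaIntegral p e) w
        (f := (tbJ p)⁻¹) (c := a ^ p * b⁻¹ ^ 1) (by rw [hw]; exact hx1)
      rwa [hαj] at h
    have hwb : OrdGE w (mzrUM p e -
        algebraMap Qb ↥(modularFunctionFieldBar (p * e)) (a ^ n * b⁻¹ ^ p)) 1 := by
      have h := mzr_ordGE_along_sub (heckeAlphaBar Qb p e) (t3h_alphaIntegral p e) w
        (f := mzrU p) (c := a ^ n * b⁻¹ ^ p) (by rw [hw]; exact hx2)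
      rwa [mzrAlpha_mzrU] at h
    have h1 := mzr_red_pole hg w (a := ⟨_, h1A⟩) h10 hwa
    have hne : (t3aBase 𝔓 (p * e) hM).res ⟨mzrUM p e, (mzrUM_mem_C 𝔓 p e hM).1⟩ ≠ 0 := by
      rw [mzr_res_UM]
      exact (map_ne_zero (mzrAlphaB 𝔓 p e)).mpr (mzrbU_ne_zero 𝔓 p)
    have h2 := mzr_red_zero hg w (a := ⟨_, h1A⟩) hwa (mzrUM_mem_C 𝔓 p e hM) (b := ⟨_, h2A⟩)
      h20 hwb hne
    rw [mzr_res_UM] at h2
    rw [← hjb] at h1
    exact mzrb_eq_zero (IsLocalRing.ResidueField ↥𝔓.P) p hp hN' _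
      ((mzr_ord_along_neg_iff _ (mzrAlphaB_isIntegral 𝔓 p e) _ _).mp h1)
      ((mzr_ord_along_pos_iff _ (mzrAlphaB_isIntegral 𝔓 p e) _ _).mp h2)
  · -- the poles of `1/j_p` are chart places for `j`
    intro w hw
    rw [hαy, Place.ord_inv] at hw
    exact mzr_chartPlace_of_zero_Jp 𝔓 p e hp hM w (by omega)

end Main

/-! ### The final statements -/

section Final

variable (𝔓 : FFPlace) (p : ℕ) [NeZero p]

/-- the reduced curve at the auxiliary level has principal divisors -/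
theorem mzr_bar_hasPrincipalDivisors (hN : ¬ 𝔓.p ∣ p) :
    HasPrincipalDivisors (IsLocalRing.ResidueField ↥𝔓.P) ↥(tbBarF 𝔓 (p * mzrAux 𝔓)) := by
  haveI := tbq_bar_isSeparable (mzr_not_dvd 𝔓 p hN)
  exact CurveP.hasPrincipalDivisors (tbq_bar_isFunctionFieldGen 𝔓 (p * mzrAux 𝔓))

set_option maxHeartbeats 1600000 in
/-- the class `[x - y]` reduces to zero if `α^* x` and `α^* y` have the same reduction -/
theorem mzrRho_mk_sub (hN : ¬ 𝔓.p ∣ p) (x y : Place Qb ↥(modularFunctionFieldBar p))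
    (h : Finsupp.mapDomain
        (t3aR (t3a_good_modular 𝔓 (p * mzrAux 𝔓) (mzr_h49 𝔓 p) (mzr_not_dvd 𝔓 p hN)))
        (Divisor.pullbackAlong (heckeAlphaBar Qb p (mzrAux 𝔓)) (t3h_alphaIntegral p (mzrAux 𝔓))
          (Finsupp.single x 1)) =
      Finsupp.mapDomain
        (t3aR (t3a_good_modular 𝔓 (p * mzrAux 𝔓) (mzr_h49 𝔓 p) (mzr_not_dvd 𝔓 p hN)))
        (Divisor.pullbackAlong (heckeAlphaBar Qb p (mzrAux 𝔓)) (t3h_alphaIntegral p (mzrAux 𝔓))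
          (Finsupp.single y 1))) :
    mzrRho 𝔓 p hN (Pic0.mk ⟨Finsupp.single x 1 - Finsupp.single y 1,
      mzr_sub_mem_degZero p x y⟩) = 0 := by
  rw [mzrRho_apply, t3pPull_mk]
  show t3aRed (t3a_good_modular 𝔓 (p * mzrAux 𝔓) (mzr_h49 𝔓 p) (mzr_not_dvd 𝔓 p hN))
    (Pic0.mk _) = 0
  rw [t3aRed_mk, t3a_pic0_mk_eq_zero_iff, coe_t3aRedDiv0]
  show Finsupp.mapDomain _ (Divisor.pullbackAlong _ _
    (Finsupp.single x 1 - Finsupp.single y 1)) ∈ _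
  rw [map_sub, Finsupp.mapDomain_sub, h, sub_self]
  exact zero_mem _

/-- **(R4∞)** two places of `X₀(p)` reducing to the cusp `∞` have the same image in the reduced
Jacobian (`p` prime, `𝔓.p ≠ p`) -/
theorem mzrRho_eq_zero_of_redInfty (hp : p.Prime) (hN : ¬ 𝔓.p ∣ p)
    (x y : Place Qb ↥(modularFunctionFieldBar p))
    (hx : MzrRedInfty 𝔓 p x) (hy : MzrRedInfty 𝔓 p y) :
    mzrRho 𝔓 p hN (Pic0.mk ⟨Finsupp.single x 1 - Finsupp.single y 1,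
      mzr_sub_mem_degZero p x y⟩) = 0 := by
  haveI := mzr_bar_hasPrincipalDivisors 𝔓 p hN
  exact mzrRho_mk_sub 𝔓 p hN x y
    ((mzr_red_cuspInfty 𝔓 p (mzrAux 𝔓) hp (mzr_h49 𝔓 p) (mzr_not_dvd 𝔓 p hN) x hx).trans
      (mzr_red_cuspInfty 𝔓 p (mzrAux 𝔓) hp (mzr_h49 𝔓 p) (mzr_not_dvd 𝔓 p hN) y hy).symm)

/-- **(R4₀)** two places of `X₀(p)` reducing to the cusp `0` have the same image in the reduced
Jacobian -/
theorem mzrRho_eq_zero_of_redZero (hp : p.Prime) (hN : ¬ 𝔓.p ∣ p)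
    (x y : Place Qb ↥(modularFunctionFieldBar p))
    (hx : MzrRedZero 𝔓 p x) (hy : MzrRedZero 𝔓 p y) :
    mzrRho 𝔓 p hN (Pic0.mk ⟨Finsupp.single x 1 - Finsupp.single y 1,
      mzr_sub_mem_degZero p x y⟩) = 0 := by
  haveI := mzr_bar_hasPrincipalDivisors 𝔓 p hN
  exact mzrRho_mk_sub 𝔓 p hN x y
    ((mzr_red_cuspZero 𝔓 p (mzrAux 𝔓) hp (mzr_h49 𝔓 p) (mzr_not_dvd 𝔓 p hN) x hx).trans
      (mzr_red_cuspZero 𝔓 p (mzrAux 𝔓) hp (mzr_h49 𝔓 p) (mzr_not_dvd 𝔓 p hN) y hy).symm)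

end Final

end Fermat.Agent.Mazur
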