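/-
MAZUR (Track M), package (R) (helper6), part 10: **setup of (R4)** — the two degeneracy inclusions
`α : F_p → F_{p e}` (over `ℚ̄`) and `ᾱ : F̄_p → F̄_{p e}` (over `κ = 𝔽̄_ℓ`), integrality, the fundamental
identity and the equality of degrees `[F_{p e} : F_p] = [F̄_{p e} : F̄_p]`; Gauss-integrality and
residues of `j_p`, `1/j_p` and `j_p / j^p` at the level `p e`.
-/
import Fermat.Agent.Lib.Mazur.Red.Defs
import Fermat.Agent.Lib.Mazur.Red.PB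
import Fermat.Agent.Lib.Mazur.Red.BarP
import Fermat.Agent.Lib.Mazur.Red.FundId
import Fermat.Agent.Lib.T2.Inst.Cusp
import Fermat.Agent.Lib.T1.Inst.UpperQ

set_option autoImplicit false
set_option linter.style.haveILetI false
set_option linter.unusedSectionVars false
set_option linter.unusedVariables false
set_option synthInstance.maxHeartbeats 400000

namespace Fermat.Agent.Mazur

open AlgebraicCurve IntermediateField Fermat.Agent.Curve Fermat.Agent.Curve.PlaceAux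
  Fermat.Agent.T1 Fermat.Agent.T2 Fermat.Agent.T3
  ModularCurve Fermat.Agent.TW Fermat.Agent.S05Lib HahnSeries

local notation "Qb" => AlgebraicClosure ℚ

section Setup

variable (𝔓 : FFPlace) (p e : ℕ) [NeZero p] [NeZero e]

/-- `j_p = j(pτ) ∈ F_p` -/
noncomputable def mzrJp : ↥(modularFunctionFieldBar p) := t2cpYq p p (dvd_refl p)

theorem coe_mzrJp : ((mzrJp p : ↥(modularFunctionFieldBar p)) : LaurentSeries Qb) =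
    qExpand Qb p (jqModC Qb) := rfl

/-- `j_p ∈ F_{p e}` -/
noncomputable def mzrJpM : ↥(modularFunctionFieldBar (p * e)) :=
  t2cpYq (p * e) p (dvd_mul_right p e)

theorem coe_mzrJpM : ((mzrJpM p e : ↥(modularFunctionFieldBar (p * e))) : LaurentSeries Qb) =
    qExpand Qb p (jqModC Qb) := rfl

theorem mzrAlpha_tbJ : heckeAlphaBar Qb p e (tbJ p) = tbJ (p * e) := by
  apply Subtype.ext
  rw [coe_heckeAlphaBar, coe_tbJ, coe_tbJ]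

theorem coe_mzrAlpha_mzrJp :
    ((heckeAlphaBar Qb p e (mzrJp p) : ↥(modularFunctionFieldBar (p * e))) : LaurentSeries Qb) =
      qExpand Qb p (jqModC Qb) := by
  rw [coe_heckeAlphaBar, coe_mzrJp]

theorem mzrAlpha_mzrJp : heckeAlphaBar Qb p e (mzrJp p) = mzrJpM p e := by
  apply Subtype.ext
  rw [coe_mzrAlpha_mzrJp, coe_mzrJpM]

/-- the inclusion `F̄_p ⊆ F̄_{p e}` of the reduced function fields -/
noncomputable def mzrAlphaB :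
    ↥(tbBarF 𝔓 p) →ₐ[IsLocalRing.ResidueField ↥𝔓.P] ↥(tbBarF 𝔓 (p * e)) :=
  IntermediateField.inclusion
    (full_degeneracyC_le (IsLocalRing.ResidueField ↥𝔓.P) (dvd_mul_right p e))

theorem coe_mzrAlphaB (z : ↥(tbBarF 𝔓 p)) :
    ((mzrAlphaB 𝔓 p e z : ↥(tbBarF 𝔓 (p * e))) :
      LaurentSeries (IsLocalRing.ResidueField ↥𝔓.P)) = (z : LaurentSeries _) :=
  IntermediateField.coe_inclusion _ z

theorem mzrAlphaB_tbBarJ : mzrAlphaB 𝔓 p e (tbBarJ 𝔓 p) = tbBarJ 𝔓 (p * e) := by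
  apply Subtype.ext
  rw [coe_mzrAlphaB]
  rfl

/-- `j̄_p ∈ F̄_{p e}` -/
noncomputable def mzrbJpM : ↥(tbBarF 𝔓 (p * e)) :=
  ⟨qExpand _ p (jqModC (IsLocalRing.ResidueField ↥𝔓.P)),
    jqModCd_mem_full _ (p * e) (dvd_mul_right p e)⟩

theorem mzrAlphaB_mzrbJp :
    mzrAlphaB 𝔓 p e (mzrbJp (IsLocalRing.ResidueField ↥𝔓.P) p) = mzrbJpM 𝔓 p e := by
  apply Subtype.ext
  rw [coe_mzrAlphaB]
  rfl

theorem mzrAlphaB_isIntegral : (mzrAlphaB 𝔓 p e).toRingHom.IsIntegral :=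
  t3h_isIntegralAlong (tbq_bar_isFunctionFieldGen 𝔓 p) (tbq_bar_isFunctionFieldGen 𝔓 (p * e)) _

theorem mzr_not_dvd_left (hM : ¬ 𝔓.p ∣ p * e) : ¬ 𝔓.p ∣ p := fun h => hM (h.mul_right e)

/-- the fundamental identity along `ᾱ` -/
theorem mzrAlphaB_fundamental (hM : ¬ 𝔓.p ∣ p * e)
    [HasPrincipalDivisors (IsLocalRing.ResidueField ↥𝔓.P) ↥(tbBarF 𝔓 (p * e))] :
    FundamentalIdentityAlong (IsLocalRing.ResidueField ↥𝔓.P) (mzrAlphaB 𝔓 p e)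
      (mzrAlphaB_isIntegral 𝔓 p e) := by
  haveI := tbq_bar_isSeparable (𝔓 := 𝔓) (N := p) (mzr_not_dvd_left 𝔓 p e hM)
  haveI : Algebra.IsSeparable
      ↥((IsLocalRing.ResidueField ↥𝔓.P)⟮mzrAlphaB 𝔓 p e (tbBarJ 𝔓 p)⟯) ↥(tbBarF 𝔓 (p * e)) := by
    rw [mzrAlphaB_tbBarJ]
    exact tbq_bar_isSeparable hM
  exact mzr_fundamentalIdentityAlong (tbq_bar_isFunctionFieldGen 𝔓 p)
    (tbq_bar_isFunctionFieldGen 𝔓 (p * e)) _ _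
    (mzr_isSeparable_along (mzrAlphaB 𝔓 p e) (tbBarJ 𝔓 p))

/-- **`[F_{p e} : F_p] = [F̄_{p e} : F̄_p]`** -/
theorem mzr_finrankAlong_eq (hM : ¬ 𝔓.p ∣ p * e) :
    finrankAlong Qb (heckeAlphaBar Qb p e) =
      finrankAlong (IsLocalRing.ResidueField ↥𝔓.P) (mzrAlphaB 𝔓 p e) := by
  have hp' := mzr_not_dvd_left 𝔓 p e hM
  have h1 := mzr_finrank_tower_along (heckeAlphaBar Qb p e) (tbJ p)
  rw [mzrAlpha_tbJ] at h1
  have h1a : Module.finrank ↥(Qb⟮tbJ p⟯) ↥(modularFunctionFieldBar p) = dedekindPsi p :=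
    Fermat.Agent.S24Lib.finrank_jBar p
  have h1b : Module.finrank ↥(Qb⟮tbJ (p * e)⟯) ↥(modularFunctionFieldBar (p * e)) =
      dedekindPsi (p * e) := Fermat.Agent.S24Lib.finrank_jBar (p * e)
  rw [h1a, h1b] at h1
  have h2 := mzr_finrank_tower_along (mzrAlphaB 𝔓 p e) (tbBarJ 𝔓 p)
  rw [mzrAlphaB_tbBarJ, tbq_finrank_bar (t3aOK 𝔓 p hp') hp',
    tbq_finrank_bar (t3aOK 𝔓 (p * e) hM) hM] at h2
  have hpos : 0 < dedekindPsi p := by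
    rw [← h1a]
    haveI := (t2cp_isFunctionFieldGen_tbJ p).finite
    exact Module.finrank_pos
  exact Nat.eq_of_mul_eq_mul_left hpos (h1.trans h2.symm)

end Setup

/-! ### Gauss-integrality and residues at the level `p e` -/

section Gauss

variable (𝔓 : FFPlace) (p e : ℕ) [NeZero p] [NeZero e]

theorem mzrJpM_mem : mzrJpM p e ∈ tbOvQ 𝔓 (p * e) := by
  refine tbq_mem_of_frac (a := qExpand ↥𝔓.P p (jqModC ↥𝔓.P)) (b := 1) ?_ ?_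
  · rw [map_one]
    exact one_ne_zero
  · rw [map_one, mul_one, coeffMap_qExpand, coeffMap_jqModC, coe_mzrJpM]

theorem mzr_res_JpM (hM : ¬ 𝔓.p ∣ p * e) :
    (t3aBase 𝔓 (p * e) hM).res ⟨mzrJpM p e, mzrJpM_mem 𝔓 p e⟩ = mzrbJpM 𝔓 p e := by
  apply Subtype.ext
  have h1 : ((mzrJpM p e : ↥(modularFunctionFieldBar (p * e))) : LaurentSeries Qb) *
      coeffMap 𝔓.P.subtype 1 = coeffMap 𝔓.P.subtype (qExpand ↥𝔓.P p (jqModC ↥𝔓.P)) := by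
    rw [map_one, mul_one, coeffMap_qExpand, coeffMap_jqModC, coe_mzrJpM]
  have h2 : coeffMap (IsLocalRing.residue ↥𝔓.P) (1 : LaurentSeries ↥𝔓.P) ≠ 0 := by
    rw [map_one]
    exact one_ne_zero
  have h3 := tbResQ_of_frac (t3aOK 𝔓 (p * e) hM) h2 h1
  rw [map_one, div_one, coeffMap_qExpand, coeffMap_jqModC] at h3
  exact h3

theorem mzrbJpM_ne_zero : mzrbJpM 𝔓 p e ≠ 0 := by
  rw [← mzrAlphaB_mzrbJp]
  exact (map_ne_zero (mzrAlphaB 𝔓 p e)).mpr (mzrbJp_ne_zero _ p)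

theorem mzr_tbBarJ_ne_zero : tbBarJ 𝔓 (p * e) ≠ 0 := by
  rw [← mzrAlphaB_tbBarJ]
  exact (map_ne_zero (mzrAlphaB 𝔓 p e)).mpr (mzrb_taBarJ_ne_zero _ p)

theorem mzrJpM_inv_mem (hM : ¬ 𝔓.p ∣ p * e) : (mzrJpM p e)⁻¹ ∈ tbOvQ 𝔓 (p * e) :=
  t3a_inv_mem_Ov (t3aBase 𝔓 (p * e) hM) (mzrJpM_mem 𝔓 p e)
    (by rw [mzr_res_JpM]; exact mzrbJpM_ne_zero 𝔓 p e)

theorem mzr_res_JpM_inv (hM : ¬ 𝔓.p ∣ p * e) :
    (t3aBase 𝔓 (p * e) hM).res ⟨(mzrJpM p e)⁻¹, mzrJpM_inv_mem 𝔓 p e hM⟩ =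
      (mzrbJpM 𝔓 p e)⁻¹ := by
  have h := t3a_res_inv (t3aBase 𝔓 (p * e) hM) (mzrJpM_mem 𝔓 p e)
    (by rw [mzr_res_JpM]; exact mzrbJpM_ne_zero 𝔓 p e)
  exact h.trans (congrArg (fun z => z⁻¹) (mzr_res_JpM 𝔓 p e hM))

theorem mzr_res_tbJ_inv (hM : ¬ 𝔓.p ∣ p * e) :
    (t3aBase 𝔓 (p * e) hM).res ⟨(tbJ (p * e))⁻¹, tbJ_inv_mem_tbOvQ⟩ = (tbBarJ 𝔓 (p * e))⁻¹ := by
  have h := t3a_res_inv (t3aBase 𝔓 (p * e) hM) (tbJ_mem_tbOvQ (𝔓 := 𝔓) (N := p * e))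
    (by rw [t3aBase_res_tbJ]; exact mzr_tbBarJ_ne_zero 𝔓 p e)
  exact h.trans (congrArg (fun z => z⁻¹) (t3aBase_res_tbJ 𝔓 (p * e) hM))

/-- `u = j_p / j^p ∈ F_p` -/
noncomputable def mzrU : ↥(modularFunctionFieldBar p) := mzrJp p * (tbJ p)⁻¹ ^ p

/-- `u = j_p / j^p ∈ F_{p e}` -/
noncomputable def mzrUM : ↥(modularFunctionFieldBar (p * e)) :=
  mzrJpM p e * (tbJ (p * e))⁻¹ ^ p

theorem mzrAlpha_mzrU : heckeAlphaBar Qb p e (mzrU p) = mzrUM p e := by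
  rw [mzrU, mzrUM, map_mul, map_pow, map_inv₀, mzrAlpha_tbJ, mzrAlpha_mzrJp]

/-- `ū = j̄_p / j̄^p ∈ F̄_p` -/
noncomputable def mzrbU : ↥(tbBarF 𝔓 p) :=
  mzrbJp (IsLocalRing.ResidueField ↥𝔓.P) p * (tbBarJ 𝔓 p)⁻¹ ^ p

theorem mzrUM_mem_C (hM : ¬ 𝔓.p ∣ p * e) :
    mzrUM p e ∈ t3aC (t3aBase 𝔓 (p * e) hM) (tbJ (p * e))⁻¹ :=
  ⟨(tbOvQ 𝔓 (p * e)).mul_mem (mzrJpM_mem 𝔓 p e)
      ((tbOvQ 𝔓 (p * e)).pow_mem tbJ_inv_mem_tbOvQ p),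
    t2cp_isIntegral_Y_div (p * e) p (dvd_mul_right p e)⟩

theorem mzr_res_UM (hM : ¬ 𝔓.p ∣ p * e) :
    (t3aBase 𝔓 (p * e) hM).res ⟨mzrUM p e, (mzrUM_mem_C 𝔓 p e hM).1⟩ =
      mzrAlphaB 𝔓 p e (mzrbU 𝔓 p) := by
  have h1 := (t3aBase 𝔓 (p * e) hM).res_mul' (mzrJpM_mem 𝔓 p e)
    ((tbOvQ 𝔓 (p * e)).pow_mem (tbJ_inv_mem_tbOvQ (𝔓 := 𝔓) (N := p * e)) p)
  have h2 := (t3aBase 𝔓 (p * e) hM).res_pow' (tbJ_inv_mem_tbOvQ (𝔓 := 𝔓) (N := p * e)) p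
  rw [mzrbU, map_mul, map_pow, map_inv₀, mzrAlphaB_tbBarJ, mzrAlphaB_mzrbJp,
    ← mzr_res_tbJ_inv 𝔓 p e hM, ← mzr_res_JpM 𝔓 p e hM, ← h2]
  exact h1

theorem mzrbU_ne_zero : mzrbU 𝔓 p ≠ 0 :=
  mul_ne_zero (mzrbJp_ne_zero _ p) (pow_ne_zero _ (inv_ne_zero (mzrb_taBarJ_ne_zero _ p)))

end Gauss

end Fermat.Agent.Mazur
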