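/-
MAZUR (Track M), package (R) (helper6), part 12: **a zero of `j_p` is a chart place for `j`**.

At the level `M = p e`: `Φ_p(j; j_p) = 0` with `Φ_p ∈ ℤ[Y][X]` monic in `X`, so `j` is integral over
`ℤ[j_p]`; at a place `w` with `j_p(w) = 0` the value `j(w)` is therefore integral over `ℤ`, so it lies
in the valuation ring `A` of `𝔓`.
-/
import Fermat.Agent.Lib.Mazur.Red.R4Setup
import Fermat.Agent.Lib.Igusa.ModPoly

set_option autoImplicit false
set_option linter.style.haveILetI false
set_option linter.unusedSectionVars false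
set_option linter.unusedVariables false
set_option synthInstance.maxHeartbeats 400000

namespace Fermat.Agent.Mazur

open AlgebraicCurve IntermediateField Fermat.Agent.Curve Fermat.Agent.Curve.PlaceAux
  Fermat.Agent.T1 Fermat.Agent.T2 Fermat.Agent.T3
  ModularCurve Fermat.Agent.TW Fermat.Agent.S05Lib HahnSeries

local notation "Qb" => AlgebraicClosure ℚ

/-- a polynomial expression of an element of a subring, with coefficients mapped into the subring,
lies in the subring -/
theorem mzr_eval₂_mem {R S : Type*} [CommRing R] [CommRing S] (T : Subring S) (f : R →+* S)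
    (hf : ∀ a, f a ∈ T) {x : S} (hx : x ∈ T) (P : Polynomial R) : P.eval₂ f x ∈ T := by
  rw [Polynomial.eval₂_eq_sum_range]
  exact T.sum_mem fun i _ => T.mul_mem (hf _) (T.pow_mem hx i)

/-- `Φ_q(j(𝔮); j(𝔮^q)) = 0` in `K((𝔮))`, with `Φ_q ∈ ℤ[Y][X]` -/
theorem mzr_modPhi_series (K : Type*) [CommRing K] (q : ℕ) [NeZero q] (hq : q.Prime) :
    (Igusa.modPhi q hq).eval₂
      (Polynomial.eval₂RingHom (Int.castRingHom (LaurentSeries K)) (qExpand K q (jqModC K)))
      (jqModC K) = 0 := by
  have h := Igusa.modPhiK_eval_right q hq K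
  rw [Igusa.modPhiK, Polynomial.eval₂_map] at h
  have hcomp : (((qExpand K q : LaurentSeries K →+* LaurentSeries K).comp (Igusa.evalJ K)).comp
        (Polynomial.mapRingHom (Int.castRingHom K))) =
      Polynomial.eval₂RingHom (Int.castRingHom (LaurentSeries K)) (qExpand K q (jqModC K)) := by
    apply Polynomial.ringHom_ext
    · intro a
      have h1 : (Polynomial.C a : Polynomial ℤ) = ((a : ℤ) : Polynomial ℤ) := by
        rw [eq_intCast]
      rw [h1, map_intCast, map_intCast]
    · simp only [RingHom.comp_apply, Polynomial.coe_mapRingHom, Polynomial.map_X,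
        Igusa.evalJ_X, Polynomial.coe_eval₂RingHom, Polynomial.eval₂_X]
  rw [hcomp] at h
  exact h

section Chart

variable (𝔓 : FFPlace) (p e : ℕ) [NeZero p] [NeZero e]

/-- **the modular equation `Φ_p(j; j_p) = 0`** in `F_{p e}` -/
theorem mzr_modular_relation (hp : p.Prime) :
    (Igusa.modPhi p hp).eval₂
      (Polynomial.eval₂RingHom (Int.castRingHom ↥(modularFunctionFieldBar (p * e)))
        (mzrJpM p e))
      (tbJ (p * e)) = 0 := by
  apply Subtype.ext
  have h := Polynomial.hom_eval₂ (Igusa.modPhi p hp)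
    (Polynomial.eval₂RingHom (Int.castRingHom ↥(modularFunctionFieldBar (p * e))) (mzrJpM p e))
    ((modularFunctionFieldBar (p * e)).val :
      ↥(modularFunctionFieldBar (p * e)) →+* LaurentSeries Qb)
    (tbJ (p * e))
  have hcomp : ((modularFunctionFieldBar (p * e)).val :
        ↥(modularFunctionFieldBar (p * e)) →+* LaurentSeries Qb).comp
      (Polynomial.eval₂RingHom (Int.castRingHom ↥(modularFunctionFieldBar (p * e)))
        (mzrJpM p e)) =
      Polynomial.eval₂RingHom (Int.castRingHom (LaurentSeries Qb)) (qExpand Qb p (jqModC Qb)) := by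
    apply Polynomial.ringHom_ext
    · intro a
      have h1 : (Polynomial.C a : Polynomial ℤ) = ((a : ℤ) : Polynomial ℤ) := by
        rw [eq_intCast]
      rw [h1, map_intCast, map_intCast]
    · simp only [RingHom.comp_apply, Polynomial.coe_eval₂RingHom, Polynomial.eval₂_X]
      show ((mzrJpM p e : ↥(modularFunctionFieldBar (p * e))) : LaurentSeries Qb) = _
      rw [coe_mzrJpM]
  rw [hcomp] at h
  have h1 : (((modularFunctionFieldBar (p * e)).val :
      ↥(modularFunctionFieldBar (p * e)) →+* LaurentSeries Qb) (tbJ (p * e))) = jqModC Qb := by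
    show ((tbJ (p * e) : ↥(modularFunctionFieldBar (p * e))) : LaurentSeries Qb) = _
    rw [coe_tbJ]
  rw [h1, mzr_modPhi_series Qb p hp] at h
  exact h

/-- **a zero of `j_p` is a chart place for `j`**: `j(w) ∈ A` -/
theorem mzr_chartPlace_of_zero_Jp (hp : p.Prime) (hM : ¬ 𝔓.p ∣ p * e)
    (w : Place Qb ↥(modularFunctionFieldBar (p * e))) (hw : 0 < w.ord (mzrJpM p e)) :
    T3aChartPlace (t3aBase 𝔓 (p * e) hM) (tbJ (p * e)) w := by
  have hx := t2cp_isFunctionFieldGen_tbJ (p * e)
  set V := t3aComp hx (t3aBase 𝔓 (p * e) hM) w with hV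
  have hY : mzrJpM p e ∈ V := by
    refine ⟨0, ?_⟩
    have h0 : mzrJpM p e - algebraMap Qb ↥(modularFunctionFieldBar (p * e))
        ((0 : ↥(t3aBase 𝔓 (p * e) hM).A) : Qb) = mzrJpM p e := by
      rw [ZeroMemClass.coe_zero, map_zero, sub_zero]
    rw [h0, ordGE_iff]
    right
    omega
  letI : Algebra (Polynomial ℤ) ↥(modularFunctionFieldBar (p * e)) :=
    (Polynomial.eval₂RingHom (Int.castRingHom ↥(modularFunctionFieldBar (p * e)))
      (mzrJpM p e)).toAlgebra
  have hR : ∀ r : Polynomial ℤ,
      algebraMap (Polynomial ℤ) ↥(modularFunctionFieldBar (p * e)) r ∈ V := by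
    intro r
    show r.eval₂ (Int.castRingHom ↥(modularFunctionFieldBar (p * e))) (mzrJpM p e) ∈ V.toSubring
    exact mzr_eval₂_mem V.toSubring _ (fun a => by
      rw [eq_intCast]
      exact intCast_mem V.toSubring a) hY r
  have hint : IsIntegral (Polynomial ℤ) (tbJ (p * e)) :=
    ⟨Igusa.modPhi p hp, Igusa.modPhi_monic p hp, mzr_modular_relation p e hp⟩
  exact (mem_t3aComp hx (t3aBase 𝔓 (p * e) hM) w).mp (t3a_mem_of_isIntegral V hR hint)

end Chart

end Fermat.Agent.Mazur
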